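/-
GATE-C / C4 (LM-F) (helper80): restriction of Galois groups along an embedding of normal
extensions `i : E →ₐ[F] E'`.  Mathlib only.  (Stated for an arbitrary `F`-algebra hom with arbitrary
`Algebra` instances, so that it applies both to `IntermediateField`s of `ℚ_q`-algebras and to
layers of `Qbar/ℚ` with the `DivisionRing.toRatAlgebra` instances.)
-/
import Mathlib

set_option autoImplicit false

namespace Fermat.Agent.GC.Global.Funct.GalRes

variable {F E E' : Type*} [Field F] [Field E] [Field E'] [Algebra F E] [Algebra F E']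

/-- restriction `Gal(E'/F) → Gal(E/F)` along `i : E →ₐ[F] E'`, `E` normal over `F`. -/
noncomputable def res (i : E →ₐ[F] E') [Normal F E] : (E' ≃ₐ[F] E') →* (E ≃ₐ[F] E) :=
  letI : Algebra E E' := i.toRingHom.toAlgebra
  haveI : IsScalarTower F E E' := IsScalarTower.of_algebraMap_eq (fun x => (i.commutes x).symm)
  AlgEquiv.restrictNormalHom E

variable (i : E →ₐ[F] E') [Normal F E]

theorem apply_res (g : E' ≃ₐ[F] E') (x : E) : i (res i g x) = g (i x) := by
  let _ : Algebra E E' := i.toRingHom.toAlgebra
  have : IsScalarTower F E E' := IsScalarTower.of_algebraMap_eq (fun x => (i.commutes x).symm)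
  exact AlgEquiv.restrictNormal_commutes g E x

theorem res_surjective [Normal F E'] : Function.Surjective (res i) := by
  let _ : Algebra E E' := i.toRingHom.toAlgebra
  have : IsScalarTower F E E' := IsScalarTower.of_algebraMap_eq (fun x => (i.commutes x).symm)
  exact AlgEquiv.restrictNormalHom_surjective E'

theorem res_eq_one_iff (g : E' ≃ₐ[F] E') : res i g = 1 ↔ ∀ x : E, g (i x) = i x := by
  constructor
  · intro hg x
    rw [← apply_res i g x, hg]
    rfl
  · intro hg
    ext x
    apply i.toRingHom.injective
    change i (res i g x) = i x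
    rw [apply_res i g x, hg x]

theorem res_eq_iff (g₁ g₂ : E' ≃ₐ[F] E') :
    res i g₁ = res i g₂ ↔ ∃ n : E' ≃ₐ[F] E', res i n = 1 ∧ g₁ = g₂ * n := by
  constructor
  · intro hg
    refine ⟨g₂⁻¹ * g₁, ?_, by group⟩
    rw [map_mul, map_inv, hg, inv_mul_cancel]
  · rintro ⟨n, hn, rfl⟩
    rw [map_mul, hn, mul_one]

theorem res_id (g : E ≃ₐ[F] E) : res (AlgHom.id F E) g = g := by
  ext x
  exact apply_res (AlgHom.id F E) g x

theorem res_res {E'' : Type*} [Field E''] [Algebra F E''] [Normal F E'] (j : E' →ₐ[F] E'')
    (g : E'' ≃ₐ[F] E'') : res i (res j g) = res (j.comp i) g := by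
  ext x
  apply (j.comp i).toRingHom.injective
  change j (i (res i (res j g) x)) = (j.comp i) (res (j.comp i) g x)
  rw [apply_res, apply_res, apply_res]
  rfl

/-- Galois correspondence: an element of `E'` fixed by the kernel of the restriction lies in the
image of `E`. -/
theorem exists_of_fixed [FiniteDimensional F E'] [IsGalois F E'] (x : E')
    (hx : ∀ n : E' ≃ₐ[F] E', res i n = 1 → n x = x) : ∃ y : E, i y = x := by
  have hgal : IntermediateField.fixedField (i.fieldRange).fixingSubgroup = i.fieldRange :=
    IsGalois.fixedField_fixingSubgroup _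
  have hx' : x ∈ IntermediateField.fixedField (i.fieldRange).fixingSubgroup := by
    rw [IntermediateField.mem_fixedField_iff]
    intro n hn
    apply hx n
    rw [res_eq_one_iff]
    intro y
    exact (IntermediateField.mem_fixingSubgroup_iff _ n).1 hn _ ⟨y, rfl⟩
  rw [hgal] at hx'
  exact hx'

end Fermat.Agent.GC.Global.Funct.GalRes
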