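/-
GATE-C / C4 (LM-F) (helper80): functoriality of the coind-idele model in the layer `L`.

For two finite Galois layers `L ≤ L'` of `Qbar/ℚ`, `N := ker (G_{L'} → G_L)`:
* `inflJq`, `inflJ : J L T → J L' T`, `f ↦ (g' ↦ f (g'|_L))` — additive, injective, equivariant along
  the restriction `G_{L'} → G_L`, with image exactly the `N`-invariants `JInv L' N T`;
* compatibility with `diag`, `tUnits`, and the induced map on `C`.
-/
import Fermat.Agent.GC.Global.Funct.GalRes
import Fermat.Agent.GC.Global.Adapter.InvJ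

set_option autoImplicit false
set_option linter.unusedSectionVars false

open scoped Padic
open IntermediateField

noncomputable section

namespace Fermat.Agent.GC.Global.Funct

open Fermat.Agent.GC.Global.Adapter

/-! ### Restriction maps -/

section Local

variable (q : ℕ) [Fact q.Prime] {L L' : IntermediateField ℚ Qb}

theorem locField_mono (h : L ≤ L') : locField q L ≤ locField q L' :=
  IntermediateField.adjoin.mono _ _ _ (Set.image_mono h)

/-- the inclusion `L → L'` as a `ℚ`-algebra map (for the `ℚ`-algebra instances in force). -/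
def gIncl (h : L ≤ L') : L →ₐ[ℚ] L' := (IntermediateField.inclusion h).toRingHom.toRatAlgHom

@[simp] theorem coe_gIncl (h : L ≤ L') (x : L) : ((gIncl h x : L') : Qb) = (x : Qb) :=
  IntermediateField.coe_inclusion h x

/-- the inclusion `L_q → L'_q`. -/
def lIncl (h : L ≤ L') : locField q L →ₐ[ℚ_[q]] locField q L' :=
  IntermediateField.inclusion (locField_mono q h)

@[simp] theorem coe_lIncl (h : L ≤ L') (x : locField q L) :
    ((lIncl q h x : locField q L') : PadicAlgCl q) = (x : PadicAlgCl q) :=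
  IntermediateField.coe_inclusion (locField_mono q h) x

theorem lIncl_locEmb (h : L ≤ L') (x : L) :
    lIncl q h (locEmb q L x) = locEmb q L' (gIncl h x) := by
  apply Subtype.ext
  rw [coe_lIncl, coe_locEmb, coe_locEmb, coe_gIncl]

/-- global restriction `G_{L'} → G_L`. -/
abbrev gRes [Normal ℚ L] (h : L ≤ L') : (L' ≃ₐ[ℚ] L') →* (L ≃ₐ[ℚ] L) := GalRes.res (gIncl h)

/-- local restriction `Gal(L'_q/ℚ_q) → Gal(L_q/ℚ_q)`. -/
abbrev lRes [Normal ℚ L] (h : L ≤ L') :
    (locField q L' ≃ₐ[ℚ_[q]] locField q L') →* (locField q L ≃ₐ[ℚ_[q]] locField q L) :=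
  GalRes.res (lIncl q h)

/-- the decomposition maps commute with restriction. -/
theorem decHom_lRes [Normal ℚ L] [Normal ℚ L'] (h : L ≤ L')
    (d : locField q L' ≃ₐ[ℚ_[q]] locField q L') :
    decHom q L (lRes q h d) = gRes h (decHom q L' d) := by
  refine AlgEquiv.ext fun x => ?_
  apply (gIncl h).toRingHom.injective
  apply locEmb_injective q L'
  change locEmb q L' (gIncl h (decHom q L (lRes q h d) x))
    = locEmb q L' (gIncl h (gRes h (decHom q L' d) x))
  rw [GalRes.apply_res (gIncl h), ← lIncl_locEmb, locEmb_decHom q L, GalRes.apply_res (lIncl q h),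
    locEmb_decHom q L', lIncl_locEmb]

end Local

/-! ### Inflation on the `q`-component -/

section Jq

variable {L L' : IntermediateField ℚ Qb} [FiniteDimensional ℚ L] [IsGalois ℚ L]
  [FiniteDimensional ℚ L'] [IsGalois ℚ L'] (h : L ≤ L') (q : Nat.Primes)

/-- the inclusion `L_qˣ → L'_qˣ`. -/
def lInclU : (locField (q : ℕ) L)ˣ →* (locField (q : ℕ) L')ˣ :=
  Units.map (lIncl (q : ℕ) h : locField (q : ℕ) L →* locField (q : ℕ) L')

@[simp] theorem coe_lInclU (u : (locField (q : ℕ) L)ˣ) :
    ((lInclU h q u : (locField (q : ℕ) L')ˣ) : locField (q : ℕ) L') = lIncl (q : ℕ) h u := rfl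

theorem lInclU_injective : Function.Injective (lInclU h q) := by
  intro u v huv
  apply Units.ext
  apply (lIncl (q : ℕ) h).toRingHom.injective
  exact congrArg (fun w : (locField (q : ℕ) L')ˣ => (w : locField (q : ℕ) L')) huv

/-- inflation `Jq(L) → Jq(L')`: `f ↦ (g' ↦ f (g'|_L))`. -/
def inflJq (f : JqCarrier L q) : JqCarrier L' q :=
  JqCarrier.ofFamily L' q (fun g' => lInclU h q (JqCarrier.val L q f (gRes h g'))) (by
    intro d' g'
    apply Units.ext
    rw [map_mul, ← decHom_lRes]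
    change lIncl (q : ℕ) h
        ((JqCarrier.val L q f (decHom (q : ℕ) L (lRes (q : ℕ) h d') * gRes h g') :
          (locField (q : ℕ) L)ˣ) : locField (q : ℕ) L)
      = d' (lIncl (q : ℕ) h ((JqCarrier.val L q f (gRes h g') : (locField (q : ℕ) L)ˣ) :
          locField (q : ℕ) L))
    rw [JqCarrier.val_decHom, GalRes.apply_res (lIncl (q : ℕ) h)])

@[simp] theorem val_inflJq (f : JqCarrier L q) (g' : L' ≃ₐ[ℚ] L') :
    JqCarrier.val L' q (inflJq h q f) g' = lInclU h q (JqCarrier.val L q f (gRes h g')) := rfl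

theorem inflJq_add (f₁ f₂ : JqCarrier L q) :
    inflJq h q (f₁ + f₂) = inflJq h q f₁ + inflJq h q f₂ := by
  apply JqCarrier.ext_val
  intro g'
  rw [JqCarrier.val_add, val_inflJq, val_inflJq, val_inflJq, JqCarrier.val_add, map_mul]

theorem inflJq_zero : inflJq h q (0 : JqCarrier L q) = 0 := by
  apply JqCarrier.ext_val
  intro g'
  rw [val_inflJq]
  change lInclU h q 1 = 1
  rw [map_one]

/-- inflation as a `ℤ`-linear map. -/
def inflJqLin : JqCarrier L q →ₗ[ℤ] JqCarrier L' q :=
  (AddMonoidHom.mk' (inflJq h q) (inflJq_add h q)).toIntLinearMap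

@[simp] theorem inflJqLin_apply (f : JqCarrier L q) : inflJqLin h q f = inflJq h q f := rfl

theorem inflJq_injective : Function.Injective (inflJq h q : JqCarrier L q → JqCarrier L' q) := by
  intro f₁ f₂ hf
  apply JqCarrier.ext_val
  intro g
  obtain ⟨g', rfl⟩ := GalRes.res_surjective (gIncl h) g
  apply lInclU_injective h q
  rw [← val_inflJq, ← val_inflJq, hf]

theorem mem_JqInv_iff_val {M : IntermediateField ℚ Qb} [FiniteDimensional ℚ M] [IsGalois ℚ M]
    (H : Subgroup (M ≃ₐ[ℚ] M)) (f : JqCarrier M q) :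
    f ∈ JqInv M q H ↔ ∀ n : M ≃ₐ[ℚ] M, n ∈ H → ∀ g, JqCarrier.val M q f (g * n)
      = JqCarrier.val M q f g := by
  constructor
  · intro hf n hn g
    exact JqCarrier.val_mul_of_mem M q H hf g n hn
  · intro hf n hn g
    exact Additive.toMul.injective (hf n hn g)

/-- inflated elements are invariant under `N = ker (G_{L'} → G_L)`. -/
theorem inflJq_mem_JqInv (f : JqCarrier L q) : inflJq h q f ∈ JqInv L' q (gRes h).ker := by
  rw [mem_JqInv_iff_val]
  intro n hn g'
  rw [val_inflJq, val_inflJq, map_mul, MonoidHom.mem_ker.1 hn, mul_one]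

theorem val_JqRep {M : IntermediateField ℚ Qb} [FiniteDimensional ℚ M] [IsGalois ℚ M]
    (g x : M ≃ₐ[ℚ] M) (f : JqCarrier M q) :
    JqCarrier.val M q (JqRep M q g f) x = JqCarrier.val M q f (x * g) := rfl

/-- inflation is equivariant along the restriction `G_{L'} → G_L`. -/
theorem inflJq_JqRep (g' : L' ≃ₐ[ℚ] L') (f : JqCarrier L q) :
    inflJq h q (JqRep L q (gRes h g') f) = JqRep L' q g' (inflJq h q f) := by
  apply JqCarrier.ext_val
  intro x
  rw [val_inflJq, val_JqRep, val_JqRep, val_inflJq, map_mul]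

/-- the local completion of `L = L'^N` at any place is contained in `L_q`. -/
theorem locFieldAt_ker_le (g' : L' ≃ₐ[ℚ] L') :
    locFieldAt L' q (gRes h).ker g' ≤ locField (q : ℕ) L := by
  rw [locFieldAt, adjoin_le_iff]
  rintro _ ⟨x, hx, rfl⟩
  have hx' : ∀ n : L' ≃ₐ[ℚ] L', gRes h n = 1 → n x = x := by
    intro n hn
    exact (IntermediateField.mem_fixedField_iff _ x).1 hx n (MonoidHom.mem_ker.2 hn)
  obtain ⟨y, rfl⟩ := GalRes.exists_of_fixed (gIncl h) x hx'
  have e : ((g' (gIncl h y) : L') : Qb) = ((gRes h g' y : L) : Qb) := by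
    rw [← GalRes.apply_res (gIncl h) g' y, coe_gIncl]
  change padicEmbedding (q : ℕ) ((g' (gIncl h y) : L') : Qb) ∈ locField (q : ℕ) L
  rw [e]
  exact padicEmbedding_mem_locField (q : ℕ) L _

/-- a unit of `L'_q` lying in `L_q`, as a unit of `L_q`. -/
def unitOfMem (u : (locField (q : ℕ) L')ˣ)
    (hu : ((u : locField (q : ℕ) L') : PadicAlgCl (q : ℕ)) ∈ locField (q : ℕ) L) :
    (locField (q : ℕ) L)ˣ :=
  Units.mk0 ⟨((u : locField (q : ℕ) L') : PadicAlgCl (q : ℕ)), hu⟩ (by
    intro h0
    have h1 : ((u : locField (q : ℕ) L') : PadicAlgCl (q : ℕ)) = 0 :=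
      congrArg (fun w : locField (q : ℕ) L => (w : PadicAlgCl (q : ℕ))) h0
    have h2 : (u : locField (q : ℕ) L') = 0 := Subtype.ext h1
    exact u.ne_zero h2)

theorem lInclU_unitOfMem (u : (locField (q : ℕ) L')ˣ)
    (hu : ((u : locField (q : ℕ) L') : PadicAlgCl (q : ℕ)) ∈ locField (q : ℕ) L) :
    lInclU h q (unitOfMem q u hu) = u := by
  apply Units.ext
  apply Subtype.ext
  rw [coe_lInclU, coe_lIncl, unitOfMem, Units.val_mk0]

/-- every `N`-invariant element of `Jq(L')` is inflated from `Jq(L)`. -/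
theorem exists_inflJq_eq {f' : JqCarrier L' q} (hf' : f' ∈ JqInv L' q (gRes h).ker) :
    ∃ f : JqCarrier L q, inflJq h q f = f' := by
  classical
  have hmem : ∀ g' : L' ≃ₐ[ℚ] L',
      (((JqCarrier.val L' q f' g' : (locField (q : ℕ) L')ˣ) : locField (q : ℕ) L') :
        PadicAlgCl (q : ℕ)) ∈ locField (q : ℕ) L :=
    fun g' => locFieldAt_ker_le h q g' (JqInv_apply_mem L' q _ hf' g')
  have hsurj := GalRes.res_surjective (gIncl h)
  let lift : (L ≃ₐ[ℚ] L) → (L' ≃ₐ[ℚ] L') := fun g => Classical.choose (hsurj g)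
  have hlift : ∀ g, gRes h (lift g) = g := fun g => Classical.choose_spec (hsurj g)
  let r : (L ≃ₐ[ℚ] L) → (locField (q : ℕ) L)ˣ :=
    fun g => unitOfMem q (JqCarrier.val L' q f' (lift g)) (hmem (lift g))
  have hr : ∀ g' : L' ≃ₐ[ℚ] L', lInclU h q (r (gRes h g')) = JqCarrier.val L' q f' g' := by
    intro g'
    change lInclU h q (unitOfMem q _ _) = _
    rw [lInclU_unitOfMem]
    obtain ⟨n, hn, hgn⟩ := (GalRes.res_eq_iff (gIncl h) (lift (gRes h g')) g').1
      (hlift (gRes h g'))
    rw [hgn]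
    exact JqCarrier.val_mul_of_mem L' q _ hf' _ n (MonoidHom.mem_ker.2 hn)
  have hD : ∀ (d : locField (q : ℕ) L ≃ₐ[ℚ_[(q : ℕ)]] locField (q : ℕ) L) (g : L ≃ₐ[ℚ] L),
      r (decHom (q : ℕ) L d * g)
        = Units.map (d : locField (q : ℕ) L →* locField (q : ℕ) L) (r g) := by
    intro d g
    obtain ⟨d', rfl⟩ := GalRes.res_surjective (lIncl (q : ℕ) h) d
    apply lInclU_injective h q
    have e1 : decHom (q : ℕ) L (lRes (q : ℕ) h d') * g
        = gRes h (decHom (q : ℕ) L' d' * lift g) := by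
      rw [map_mul, hlift, decHom_lRes]
    rw [e1, hr]
    apply Units.ext
    rw [JqCarrier.val_decHom]
    change d' ((JqCarrier.val L' q f' (lift g) : (locField (q : ℕ) L')ˣ) : locField (q : ℕ) L')
      = lIncl (q : ℕ) h (lRes (q : ℕ) h d' ((r g : (locField (q : ℕ) L)ˣ) : locField (q : ℕ) L))
    rw [GalRes.apply_res (lIncl (q : ℕ) h), ← coe_lInclU, ← hlift g, hr, hlift g]
  refine ⟨JqCarrier.ofFamily L q r hD, ?_⟩
  apply JqCarrier.ext_val
  intro g'
  rw [val_inflJq, JqCarrier.val_ofFamily, hr]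

end Jq

/-! ### Inflation on the `T`-ideles -/

section J

variable {L L' : IntermediateField ℚ Qb} [FiniteDimensional ℚ L] [IsGalois ℚ L]
  [FiniteDimensional ℚ L'] [IsGalois ℚ L'] (h : L ≤ L') (T : Finset Nat.Primes)

/-- inflation `J(L,T) → J(L',T)`. -/
def inflJ : J L T →ₗ[ℤ] J L' T :=
  LinearMap.pi fun q : T => (inflJqLin h (q : Nat.Primes)).comp (LinearMap.proj q)

@[simp] theorem inflJ_apply (y : J L T) (q : T) :
    inflJ h T y q = inflJq h (q : Nat.Primes) (y q) := rfl

theorem inflJ_injective : Function.Injective (inflJ h T) := by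
  intro y₁ y₂ hy
  funext q
  apply inflJq_injective h (q : Nat.Primes)
  have := congrFun hy q
  exact this

/-- inflation is equivariant along the restriction `G_{L'} → G_L`. -/
theorem inflJ_rho (g' : L' ≃ₐ[ℚ] L') (y : J L T) :
    inflJ h T ((J L T).ρ (gRes h g') y) = (J L' T).ρ g' (inflJ h T y) := by
  funext q
  exact inflJq_JqRep h (q : Nat.Primes) g' (y q)

theorem inflJ_mem_JInv (y : J L T) : inflJ h T y ∈ JInv L' (gRes h).ker T :=
  fun q => inflJq_mem_JqInv h (q : Nat.Primes) (y q)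

theorem exists_inflJ_eq {y' : J L' T} (hy' : y' ∈ JInv L' (gRes h).ker T) :
    ∃ y : J L T, inflJ h T y = y' := by
  classical
  have hq : ∀ q : T, ∃ f : JqCarrier L (q : Nat.Primes), inflJq h (q : Nat.Primes) f = y' q :=
    fun q => exists_inflJq_eq h (q : Nat.Primes) (hy' q)
  choose f hf using hq
  exact ⟨f, funext hf⟩

/-- the image of the inflation is exactly the module of `N`-invariants, `N = ker (G_{L'} → G_L)`. -/
theorem range_inflJ : LinearMap.range (inflJ h T) = JInv L' (gRes h).ker T := by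
  ext y'
  constructor
  · rintro ⟨y, rfl⟩
    exact inflJ_mem_JInv h T y
  · intro hy'
    exact exists_inflJ_eq h T hy'

/-! ### Compatibility with the diagonal and with `T`-units -/

/-- the inclusion `Lˣ → L'ˣ`, additively. -/
def gInclA : Additive Lˣ →+ Additive L'ˣ :=
  MonoidHom.toAdditive (Units.map (gIncl h : L →* L'))

@[simp] theorem coe_gInclA (x : Additive Lˣ) :
    ((Additive.toMul (gInclA h x) : L'ˣ) : L') = gIncl h ((Additive.toMul x : Lˣ) : L) := rfl

theorem gInclA_injective : Function.Injective (gInclA h) := by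
  intro x y hxy
  apply Additive.toMul.injective
  apply Units.ext
  apply (gIncl h).toRingHom.injective
  have := congrArg (fun z : Additive L'ˣ => ((Additive.toMul z : L'ˣ) : L')) hxy
  exact this

/-- the Galois actions on `Lˣ` and `L'ˣ` are compatible with restriction. -/
theorem gInclA_rho (g' : L' ≃ₐ[ℚ] L') (x : Additive Lˣ) :
    gInclA h ((globUnits L).ρ (gRes h g') x) = (globUnits L').ρ g' (gInclA h x) := by
  apply Additive.toMul.injective
  apply Units.ext
  change gIncl h (gRes h g' ((Additive.toMul x : Lˣ) : L)) = g' (gIncl h ((Additive.toMul x : Lˣ) : L))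
  exact GalRes.apply_res (gIncl h) g' _

theorem inflJq_diagqLin (q : Nat.Primes) (x : Additive Lˣ) :
    inflJq h q (diagqLin L q x) = diagqLin L' q (gInclA h x) := by
  apply JqCarrier.ext_val
  intro g'
  apply Units.ext
  rw [val_inflJq, coe_lInclU, JqCarrier.val_diagqLin, JqCarrier.val_diagqLin, lIncl_locEmb,
    GalRes.apply_res (gIncl h), coe_gInclA]

/-- inflation commutes with the diagonal embeddings. -/
theorem inflJ_diag (x : Additive Lˣ) :
    inflJ h T ((diag L T).hom x) = (diag L' T).hom (gInclA h x) := by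
  funext q
  exact inflJq_diagqLin h (q : Nat.Primes) x

theorem isTIntegral_gIncl_iff (x : L) : IsTIntegral L' T (gIncl h x) ↔ IsTIntegral L T x := by
  have key : ∀ n : ℕ, IsIntegral ℤ (((Tprod T : ℕ) : L') ^ n * gIncl h x)
      ↔ IsIntegral ℤ (((Tprod T : ℕ) : L) ^ n * x) := by
    intro n
    have e : ((Tprod T : ℕ) : L') ^ n * gIncl h x = gIncl h (((Tprod T : ℕ) : L) ^ n * x) := by
      simp
    rw [e]
    exact isIntegral_algHom_iff ((gIncl h).toRingHom.toIntAlgHom) (gIncl h).toRingHom.injective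
  constructor
  · rintro ⟨n, hn⟩
    exact ⟨n, (key n).1 hn⟩
  · rintro ⟨n, hn⟩
    exact ⟨n, (key n).2 hn⟩

/-- `T`-units are insensitive to the layer. -/
theorem gInclA_mem_tUnitsSub_iff (x : Additive Lˣ) :
    gInclA h x ∈ tUnitsSub L' T ↔ x ∈ tUnitsSub L T := by
  rw [mem_tUnitsSub, mem_tUnitsSub, mem_tUnits, mem_tUnits]
  have e1 : ((Additive.toMul (gInclA h x) : L'ˣ) : L') = gIncl h ((Additive.toMul x : Lˣ) : L) := rfl
  have e2 : (((Additive.toMul (gInclA h x) : L'ˣ)⁻¹ : L'ˣ) : L')
      = gIncl h (((Additive.toMul x : Lˣ)⁻¹ : Lˣ) : L) := by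
    change (((Units.map (gIncl h : L →* L') (Additive.toMul x))⁻¹ : L'ˣ) : L') = _
    rw [← map_inv]
    rfl
  rw [e1, e2, isTIntegral_gIncl_iff, isTIntegral_gIncl_iff]

end J

end Fermat.Agent.GC.Global.Funct
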