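/-
GATE-C / C4 (LM-F) part 2 (helper80): functoriality of the class module `C(L,T)` in the layer `L`.

For `L ≤ L'` finite Galois layers, `N := ker (G_{L'} → G_L)`:
* `inflC : C L T →ₗ[ℤ] C L' T`, induced by `inflJ`; equivariant; injective (for `T ≠ ∅`);
* its image is the module of `N`-invariants of `C L' T` as soon as `H¹(N, E(L',T)) = 0`.
-/
import Fermat.Agent.GC.Global.Funct.ModelFunct
import Fermat.Agent.GC.Tate.InfRes2

set_option autoImplicit false
set_option linter.unusedSectionVars false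

open scoped Padic
open IntermediateField

noncomputable section

namespace Fermat.Agent.GC.Global.Funct

open Fermat.Agent.GC.Global.Adapter

variable {L L' : IntermediateField ℚ Qb} [FiniteDimensional ℚ L] [IsGalois ℚ L]
  [FiniteDimensional ℚ L'] [IsGalois ℚ L'] (h : L ≤ L') (T : Finset Nat.Primes)

theorem diagTUnits_le_comap_inflJ :
    diagTUnits L T ≤ (diagTUnits L' T).comap (inflJ h T) := by
  rintro _ ⟨x, hx, rfl⟩
  exact ⟨gInclA h x, (gInclA_mem_tUnitsSub_iff h T x).2 hx, (inflJ_diag h T x).symm⟩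

/-- inflation `C(L,T) → C(L',T)`. -/
def inflC : C L T →ₗ[ℤ] C L' T :=
  Submodule.mapQ (diagTUnits L T) (diagTUnits L' T) (inflJ h T) (diagTUnits_le_comap_inflJ h T)

theorem inflC_JtoC (y : J L T) :
    inflC h T ((JtoC L T).hom y) = (JtoC L' T).hom (inflJ h T y) := rfl

/-- inflation is equivariant along the restriction `G_{L'} → G_L`. -/
theorem inflC_rho (g' : L' ≃ₐ[ℚ] L') (c : C L T) :
    inflC h T ((C L T).ρ (gRes h g') c) = (C L' T).ρ g' (inflC h T c) := by
  obtain ⟨y, rfl⟩ := JtoC_surjective L T c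
  have e1 : (C L T).ρ (gRes h g') ((JtoC L T).hom y)
      = (JtoC L T).hom ((J L T).ρ (gRes h g') y) := rfl
  have e2 : (C L' T).ρ g' ((JtoC L' T).hom (inflJ h T y))
      = (JtoC L' T).hom ((J L' T).ρ g' (inflJ h T y)) := rfl
  rw [e1, inflC_JtoC, inflC_JtoC, e2, inflJ_rho]

/-- the diagonal embedding is equivariant (elementwise form). -/
theorem diag_rho (M : IntermediateField ℚ Qb) [Normal ℚ M] (g : M ≃ₐ[ℚ] M) (x : globUnits M) :
    (diag M T).hom ((globUnits M).ρ g x) = (J M T).ρ g ((diag M T).hom x) :=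
  congrArg (fun f => f x) ((diag M T).hom.isIntertwining' g)

/-- an element of `L'ˣ` fixed by `N` comes from `Lˣ`. -/
theorem exists_gInclA_eq (u' : Additive L'ˣ)
    (hu' : ∀ n : L' ≃ₐ[ℚ] L', n ∈ (gRes h).ker → (globUnits L').ρ n u' = u') :
    ∃ x : Additive Lˣ, gInclA h x = u' := by
  have hfix : ∀ n : L' ≃ₐ[ℚ] L', gRes h n = 1 →
      n ((Additive.toMul u' : L'ˣ) : L') = ((Additive.toMul u' : L'ˣ) : L') := by
    intro n hn
    have := hu' n (MonoidHom.mem_ker.2 hn)
    exact congrArg (fun z : Additive L'ˣ => ((Additive.toMul z : L'ˣ) : L')) this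
  obtain ⟨y, hy⟩ := GalRes.exists_of_fixed (gIncl h) _ hfix
  have hy0 : y ≠ 0 := by
    rintro rfl
    rw [map_zero] at hy
    exact (Additive.toMul u' : L'ˣ).ne_zero hy.symm
  refine ⟨Additive.ofMul (Units.mk0 y hy0), ?_⟩
  apply Additive.toMul.injective
  apply Units.ext
  exact hy

/-- inflation `C(L,T) → C(L',T)` is injective. -/
theorem inflC_injective (hT : T.Nonempty) : Function.Injective (inflC h T) := by
  rw [← LinearMap.ker_eq_bot, LinearMap.ker_eq_bot']
  intro c hc
  obtain ⟨y, rfl⟩ := JtoC_surjective L T c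
  rw [inflC_JtoC] at hc
  obtain ⟨u', hu', hy'⟩ := (Submodule.Quotient.mk_eq_zero _).1 hc
  -- `u'` is `N`-invariant
  have hinv : ∀ n : L' ≃ₐ[ℚ] L', n ∈ (gRes h).ker → (globUnits L').ρ n u' = u' := by
    intro n hn
    apply diag_injective L' T hT
    have h1 : (diag L' T).hom u' = inflJ h T y := hy'
    rw [diag_rho T L' n u', h1]
    exact (mem_JInv_iff_rho L' (gRes h).ker T).1 (inflJ_mem_JInv h T y) n hn
  obtain ⟨x, rfl⟩ := exists_gInclA_eq h u' hinv
  have hx : x ∈ tUnitsSub L T := (gInclA_mem_tUnitsSub_iff h T x).1 hu'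
  have hy2 : inflJ h T ((diag L T).hom x) = inflJ h T y := by
    rw [inflJ_diag]
    exact hy'
  have hy3 : (diag L T).hom x = y := inflJ_injective h T hy2
  rw [← hy3]
  exact (Submodule.Quotient.mk_eq_zero _).2 ⟨x, hx, rfl⟩

/-- every `N`-invariant class of `C(L',T)` is inflated from `C(L,T)`, provided `H¹(N, E(L',T)) = 0`
(`N = ker (G_{L'} → G_L)`). -/
theorem exists_inflC_eq (hT : T.Nonempty)
    (hH1 : Fermat.Agent.GC.Tate.InfRes2.H1Vanishes (E L' T) (gRes h).ker)
    (c' : C L' T) (hc' : ∀ n : L' ≃ₐ[ℚ] L', n ∈ (gRes h).ker → (C L' T).ρ n c' = c') :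
    ∃ c : C L T, inflC h T c = c' := by
  classical
  obtain ⟨y', rfl⟩ := JtoC_surjective L' T c'
  -- the defect cocycle
  have hdef : ∀ n : L' ≃ₐ[ℚ] L', n ∈ (gRes h).ker →
      ∃ u : E L' T, (diag L' T).hom (u.1 : Additive L'ˣ) = (J L' T).ρ n y' - y' := by
    intro n hn
    have h1 : (JtoC L' T).hom ((J L' T).ρ n y' - y') = 0 := by
      rw [map_sub, sub_eq_zero]
      exact hc' n hn
    obtain ⟨u, hu, hu'⟩ := (Submodule.Quotient.mk_eq_zero _).1 h1
    exact ⟨⟨u, hu⟩, hu'⟩
  let cc : (L' ≃ₐ[ℚ] L') → E L' T := fun n =>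
    if hn : n ∈ (gRes h).ker then Classical.choose (hdef n hn) else 0
  have hcc : ∀ n (hn : n ∈ (gRes h).ker),
      (diag L' T).hom ((cc n).1 : Additive L'ˣ) = (J L' T).ρ n y' - y' := by
    intro n hn
    simp only [cc, dif_pos hn]
    exact Classical.choose_spec (hdef n hn)
  have hEinj : ∀ a b : E L' T, (diag L' T).hom (a.1 : Additive L'ˣ)
      = (diag L' T).hom (b.1 : Additive L'ˣ) → a = b :=
    fun a b hab => Subtype.ext (diag_injective L' T hT hab)
  have hErho : ∀ (g : L' ≃ₐ[ℚ] L') (a : E L' T),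
      (((E L' T).ρ g a : E L' T).1 : Additive L'ˣ) = (globUnits L').ρ g (a.1 : Additive L'ˣ) :=
    fun _ _ => rfl
  obtain ⟨a, ha⟩ := hH1 cc (by
    intro s hs t ht
    apply hEinj
    have e : (((E L' T).ρ s (cc t) + cc s : E L' T).1 : Additive L'ˣ)
        = (globUnits L').ρ s ((cc t).1 : Additive L'ˣ) + ((cc s).1 : Additive L'ˣ) := rfl
    rw [e, map_add, diag_rho T L' s (cc t).1, hcc _ (mul_mem hs ht), hcc t ht, hcc s hs, map_mul,
      map_sub]
    simp only [Module.End.mul_apply]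
    abel)
  -- correct the lift
  set y'' : J L' T := y' - (diag L' T).hom (a.1 : Additive L'ˣ) with hy''
  have hinv : y'' ∈ JInv L' (gRes h).ker T := by
    rw [mem_JInv_iff_rho]
    intro n hn
    have h1 := ha n hn
    have h2 : (diag L' T).hom ((cc n).1 : Additive L'ˣ)
        = (J L' T).ρ n ((diag L' T).hom (a.1 : Additive L'ˣ))
          - (diag L' T).hom (a.1 : Additive L'ˣ) := by
      rw [h1]
      have e : (((E L' T).ρ n a - a : E L' T).1 : Additive L'ˣ)
          = (globUnits L').ρ n (a.1 : Additive L'ˣ) - (a.1 : Additive L'ˣ) := rfl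
      rw [e, map_sub, diag_rho T L' n a.1]
    rw [hcc n hn] at h2
    rw [hy'', map_sub]
    have h3 : (J L' T).ρ n y' = y' + ((J L' T).ρ n ((diag L' T).hom (a.1 : Additive L'ˣ))
        - (diag L' T).hom (a.1 : Additive L'ˣ)) := by
      rw [← h2]
      abel
    rw [h3]
    abel
  obtain ⟨y, hy⟩ := exists_inflJ_eq h T hinv
  refine ⟨(JtoC L T).hom y, ?_⟩
  rw [inflC_JtoC, hy, hy'', map_sub, sub_eq_self]
  exact (Submodule.Quotient.mk_eq_zero _).2 ⟨a.1, a.2, rfl⟩

/-! ### Transitivity -/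

section Trans

variable {L'' : IntermediateField ℚ Qb} [FiniteDimensional ℚ L''] [IsGalois ℚ L''] (h' : L' ≤ L'')

theorem gIncl_comp : (gIncl h').comp (gIncl h) = gIncl (h.trans h') := by
  apply AlgHom.ext
  intro x
  apply Subtype.ext
  change ((gIncl h' (gIncl h x) : L'') : Qb) = ((gIncl (h.trans h') x : L'') : Qb)
  rw [coe_gIncl, coe_gIncl, coe_gIncl]

theorem gRes_gRes (g : L'' ≃ₐ[ℚ] L'') : gRes h (gRes h' g) = gRes (h.trans h') g := by
  change GalRes.res (gIncl h) (GalRes.res (gIncl h') g) = GalRes.res (gIncl (h.trans h')) g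
  rw [GalRes.res_res, gIncl_comp]

theorem gRes_refl (g : L ≃ₐ[ℚ] L) : gRes (le_refl L) g = g := by
  have e : gIncl (le_refl L) = AlgHom.id ℚ L := by
    apply AlgHom.ext
    intro x
    apply Subtype.ext
    change ((gIncl (le_refl L) x : L) : Qb) = (x : Qb)
    rw [coe_gIncl]
  change GalRes.res (gIncl (le_refl L)) g = g
  rw [e, GalRes.res_id]

theorem lInclU_lInclU (q : Nat.Primes) (u : (locField (q : ℕ) L)ˣ) :
    lInclU h' q (lInclU h q u) = lInclU (h.trans h') q u := by
  apply Units.ext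
  apply Subtype.ext
  rw [coe_lInclU, coe_lInclU, coe_lInclU, coe_lIncl, coe_lIncl, coe_lIncl]

theorem inflJq_inflJq (q : Nat.Primes) (f : JqCarrier L q) :
    inflJq h' q (inflJq h q f) = inflJq (h.trans h') q f := by
  apply JqCarrier.ext_val
  intro g
  rw [val_inflJq, val_inflJq, val_inflJq, lInclU_lInclU, gRes_gRes]

theorem inflJq_refl (q : Nat.Primes) (f : JqCarrier L q) : inflJq (le_refl L) q f = f := by
  apply JqCarrier.ext_val
  intro g
  rw [val_inflJq, gRes_refl]
  apply Units.ext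
  apply Subtype.ext
  rw [coe_lInclU, coe_lIncl]

/-- transitivity of the inflation maps on ideles. -/
theorem inflJ_inflJ (y : J L T) : inflJ h' T (inflJ h T y) = inflJ (h.trans h') T y := by
  funext q
  exact inflJq_inflJq h h' (q : Nat.Primes) (y q)

theorem inflJ_refl (y : J L T) : inflJ (le_refl L) T y = y := by
  funext q
  exact inflJq_refl (q : Nat.Primes) (y q)

/-- transitivity of the inflation maps on class modules. -/
theorem inflC_inflC (c : C L T) : inflC h' T (inflC h T c) = inflC (h.trans h') T c := by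
  obtain ⟨y, rfl⟩ := JtoC_surjective L T c
  rw [inflC_JtoC, inflC_JtoC, inflC_JtoC, inflJ_inflJ]

theorem inflC_refl (c : C L T) : inflC (le_refl L) T c = c := by
  obtain ⟨y, rfl⟩ := JtoC_surjective L T c
  rw [inflC_JtoC, inflJ_refl]

theorem gInclA_gInclA (x : Additive Lˣ) : gInclA h' (gInclA h x) = gInclA (h.trans h') x := by
  apply Additive.toMul.injective
  apply Units.ext
  apply Subtype.ext
  change ((gIncl h' (gIncl h ((Additive.toMul x : Lˣ) : L)) : L'') : Qb)
    = ((gIncl (h.trans h') ((Additive.toMul x : Lˣ) : L) : L'') : Qb)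
  rw [coe_gIncl, coe_gIncl, coe_gIncl]

end Trans

end Fermat.Agent.GC.Global.Funct
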