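/-
GATE-C / C4 (LM-T) part 1 (helper80): change of the auxiliary set of primes `T ⊆ T'` in the
coind-idele model.

* `extJ L hTT : J L T →ₗ[ℤ] J L T'` : extension by `0` (i.e. by the trivial idele) outside `T`;
  injective, equivariant, compatible with the inflation maps `inflJ`, transitive;
* `resJ : J L T' →ₗ[ℤ] J L T` : the projection, a retraction of `extJ`.
-/
import Fermat.Agent.GC.Global.Funct.ModelFunct

set_option autoImplicit false
set_option linter.unusedSectionVars false

open scoped Padic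
open IntermediateField

noncomputable section

namespace Fermat.Agent.GC.Global.Funct

open Fermat.Agent.GC.Global.Adapter

section ExtJ

variable (L : IntermediateField ℚ Qb) [FiniteDimensional ℚ L] [IsGalois ℚ L]
  {T T' : Finset Nat.Primes}

/-- the `q`-component of `extJ`. -/
def extJComp (T : Finset Nat.Primes) (q : Nat.Primes) :
    (∀ i : T, JqCarrier L (i : Nat.Primes)) →ₗ[ℤ] JqCarrier L q :=
  if h : q ∈ T then LinearMap.proj (⟨q, h⟩ : T) else 0

theorem extJComp_of_mem (T : Finset Nat.Primes) (q : Nat.Primes) (h : q ∈ T)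
    (y : ∀ i : T, JqCarrier L (i : Nat.Primes)) : extJComp L T q y = y ⟨q, h⟩ := by
  unfold extJComp
  rw [dif_pos h]
  rfl

theorem extJComp_of_not_mem (T : Finset Nat.Primes) (q : Nat.Primes) (h : q ∉ T)
    (y : ∀ i : T, JqCarrier L (i : Nat.Primes)) : extJComp L T q y = 0 := by
  unfold extJComp
  rw [dif_neg h]
  rfl

/-- extension by zero `J(L,T) → J(L,T')` for `T ⊆ T'` (the definition does not need `T ⊆ T'`). -/
def extJ (T T' : Finset Nat.Primes) : J L T →ₗ[ℤ] J L T' :=
  LinearMap.pi fun q : T' => extJComp L T (q : Nat.Primes)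

theorem extJ_apply_of_mem (y : J L T) (q : T') (h : (q : Nat.Primes) ∈ T) :
    extJ L T T' y q = y ⟨(q : Nat.Primes), h⟩ :=
  extJComp_of_mem L T (q : Nat.Primes) h y

theorem extJ_apply_of_not_mem (y : J L T) (q : T') (h : (q : Nat.Primes) ∉ T) :
    extJ L T T' y q = 0 :=
  extJComp_of_not_mem L T (q : Nat.Primes) h y

/-- the projection `J(L,T') → J(L,T)` for `T ⊆ T'`. -/
def resJ (hTT : T ⊆ T') : J L T' →ₗ[ℤ] J L T :=
  LinearMap.pi fun q : T =>
    (LinearMap.proj (⟨(q : Nat.Primes), hTT q.2⟩ : T') :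
      (∀ i : T', JqCarrier L (i : Nat.Primes)) →ₗ[ℤ] JqCarrier L (q : Nat.Primes))

theorem resJ_apply (hTT : T ⊆ T') (y : J L T') (q : T) :
    resJ L hTT y q = y ⟨(q : Nat.Primes), hTT q.2⟩ := rfl

theorem resJ_extJ (hTT : T ⊆ T') (y : J L T) : resJ L hTT (extJ L T T' y) = y := by
  funext q
  rw [resJ_apply, extJ_apply_of_mem L y ⟨(q : Nat.Primes), hTT q.2⟩ q.2]

theorem extJ_injective (hTT : T ⊆ T') : Function.Injective (extJ L T T') :=
  Function.LeftInverse.injective (resJ_extJ L hTT)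

/-- `extJ` is `G_L`-equivariant. -/
theorem extJ_rho (g : L ≃ₐ[ℚ] L) (y : J L T) :
    extJ L T T' ((J L T).ρ g y) = (J L T').ρ g (extJ L T T' y) := by
  funext q
  by_cases h : (q : Nat.Primes) ∈ T
  · have e : ((J L T').ρ g (extJ L T T' y)) q = JqRep L (q : Nat.Primes) g (extJ L T T' y q) := rfl
    rw [e, extJ_apply_of_mem L _ q h, extJ_apply_of_mem L _ q h]
    rfl
  · have e : ((J L T').ρ g (extJ L T T' y)) q = JqRep L (q : Nat.Primes) g (extJ L T T' y q) := rfl
    rw [e, extJ_apply_of_not_mem L _ q h, extJ_apply_of_not_mem L _ q h, map_zero]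

/-- `resJ` is `G_L`-equivariant. -/
theorem resJ_rho (hTT : T ⊆ T') (g : L ≃ₐ[ℚ] L) (y : J L T') :
    resJ L hTT ((J L T').ρ g y) = (J L T).ρ g (resJ L hTT y) := rfl

theorem extJ_refl (y : J L T) : extJ L T T y = y := by
  funext q
  exact extJ_apply_of_mem L y q q.2

theorem extJ_extJ {T'' : Finset Nat.Primes} (hTT : T ⊆ T') (y : J L T) :
    extJ L T' T'' (extJ L T T' y) = extJ L T T'' y := by
  funext q
  by_cases h : (q : Nat.Primes) ∈ T
  · rw [extJ_apply_of_mem L _ q (hTT h), extJ_apply_of_mem L _ q h,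
      extJ_apply_of_mem L y ⟨(q : Nat.Primes), hTT h⟩ h]
  · rw [extJ_apply_of_not_mem L y q h]
    by_cases h' : (q : Nat.Primes) ∈ T'
    · rw [extJ_apply_of_mem L _ q h', extJ_apply_of_not_mem L y ⟨(q : Nat.Primes), h'⟩ h]
    · rw [extJ_apply_of_not_mem L _ q h']

/-- the components of `extJ y` outside `T` vanish; conversely such ideles are extended. -/
theorem mem_range_extJ_iff (hTT : T ⊆ T') (y' : J L T') :
    y' ∈ LinearMap.range (extJ L T T') ↔ ∀ q : T', (q : Nat.Primes) ∉ T → y' q = 0 := by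
  constructor
  · rintro ⟨y, rfl⟩ q hq
    exact extJ_apply_of_not_mem L y q hq
  · intro hy'
    refine ⟨resJ L hTT y', ?_⟩
    funext q
    by_cases h : (q : Nat.Primes) ∈ T
    · rw [extJ_apply_of_mem L _ q h, resJ_apply]
    · rw [extJ_apply_of_not_mem L _ q h, hy' q h]

/-- the diagonal embedding: `extJ (diag_T x)` and `diag_{T'} x` agree at the primes of `T`. -/
theorem extJ_diag_apply_of_mem (x : Additive Lˣ) (q : T') (h : (q : Nat.Primes) ∈ T) :
    extJ L T T' ((diag L T).hom x) q = (diag L T').hom x q := by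
  rw [extJ_apply_of_mem L _ q h]
  rfl

theorem resJ_diag (hTT : T ⊆ T') (x : Additive Lˣ) :
    resJ L hTT ((diag L T').hom x) = (diag L T).hom x := rfl

end ExtJ

section Infl

variable {L L' : IntermediateField ℚ Qb} [FiniteDimensional ℚ L] [IsGalois ℚ L]
  [FiniteDimensional ℚ L'] [IsGalois ℚ L'] (h : L ≤ L') {T T' : Finset Nat.Primes}

/-- `extJ` commutes with inflation. -/
theorem inflJ_extJ (y : J L T) :
    inflJ h T' (extJ L T T' y) = extJ L' T T' (inflJ h T y) := by
  funext q
  rw [inflJ_apply]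
  by_cases hq : (q : Nat.Primes) ∈ T
  · rw [extJ_apply_of_mem L _ q hq, extJ_apply_of_mem L' _ q hq, inflJ_apply]
  · rw [extJ_apply_of_not_mem L _ q hq, extJ_apply_of_not_mem L' _ q hq, inflJq_zero]

/-- `resJ` commutes with inflation. -/
theorem inflJ_resJ (hTT : T ⊆ T') (y : J L T') :
    inflJ h T (resJ L hTT y) = resJ L' hTT (inflJ h T' y) := rfl

end Infl

end Fermat.Agent.GC.Global.Funct
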