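/-
GATE-C / C4 (LM-T) (helper80): the valuation dictionary for arbitrary field elements.

For a number field `K`, an embedding `σ : K →+* PadicAlgCl q` and `x : K`:
  `‖σ x‖ ≤ 1 ↔ (placeOf q σ).valuation K x ≤ 1`
(helper11's `ValDict` states the dictionary for integers only).
-/
import Fermat.Agent.GC.Global.Adapter.ValDict

set_option autoImplicit false
set_option linter.unusedSectionVars false

open scoped Padic NumberField NNReal
open IsDedekindDomain NumberField WithZero

noncomputable section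

namespace Fermat.Agent.GC.Global.Funct

open Fermat.Agent.GC.Global.Adapter

variable (q : ℕ) [Fact q.Prime] {K : Type*} [Field K] [NumberField K] (σ : K →+* PadicAlgCl q)

/-- the exact order of a nonzero integer at the place of `σ`. -/
theorem exists_mem_pow_notMem_pow_succ_place {b : 𝓞 K} (hb : b ≠ 0) :
    ∃ n : ℕ, b ∈ (placeIdeal q σ) ^ n ∧ b ∉ (placeIdeal q σ) ^ (n + 1) ∧
      ‖σ (b : K)‖ = placeConst q σ ^ n := by
  have hc0 := placeConst_pos q σ
  have hc1 := placeConst_lt_one q σ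
  have hn := norm_eq_placeConst_pow_multiplicity q σ hb
  refine ⟨multiplicity (placeIdeal q σ) (Ideal.span {b}), ?_, ?_, hn⟩
  · exact (norm_le_placeConst_pow_iff q σ).1 hn.le
  · intro hmem
    have h2 := (norm_le_placeConst_pow_iff q σ).2 hmem
    rw [hn, pow_succ] at h2
    have hpos : 0 < placeConst q σ ^ multiplicity (placeIdeal q σ) (Ideal.span {b}) :=
      pow_pos hc0 _
    nlinarith

/-- integers: `‖σ a‖ ≤ ‖σ b‖ ↔ v(a) ≤ v(b)` (multiplicative valuations). -/
theorem norm_le_norm_iff_intValuation_le (a : 𝓞 K) {b : 𝓞 K} (hb : b ≠ 0) :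
    ‖σ (a : K)‖ ≤ ‖σ (b : K)‖ ↔
      (placeOf q σ).intValuation a ≤ (placeOf q σ).intValuation b := by
  obtain ⟨n, hn1, hn2, hn3⟩ := exists_mem_pow_notMem_pow_succ_place q σ hb
  have hb1 : (placeOf q σ).intValuation b ≤ exp (-(n : ℤ)) :=
    ((placeOf q σ).intValuation_le_pow_iff_mem b n).2 hn1
  have hb2 : ¬ (placeOf q σ).intValuation b ≤ exp (-((n + 1 : ℕ) : ℤ)) := fun h =>
    hn2 (((placeOf q σ).intValuation_le_pow_iff_mem b (n + 1)).1 h)
  have hb0 : (placeOf q σ).intValuation b ≠ 0 := (placeOf q σ).intValuation_ne_zero b hb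
  have hb3 : exp (-(n : ℤ)) ≤ (placeOf q σ).intValuation b := by
    rw [← exp_log hb0] at hb2 ⊢
    rw [exp_le_exp] at hb2 ⊢
    push_cast at hb2
    omega
  have hbe : (placeOf q σ).intValuation b = exp (-(n : ℤ)) := le_antisymm hb1 hb3
  rw [hn3, hbe, norm_le_placeConst_pow_iff]
  exact (((placeOf q σ).intValuation_le_pow_iff_mem a n)).symm

/-- **the valuation dictionary for field elements**. -/
theorem norm_le_one_iff_valuation_le_one (x : K) :
    ‖σ x‖ ≤ 1 ↔ (placeOf q σ).valuation K x ≤ 1 := by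
  obtain ⟨a, b, hb, rfl⟩ := IsFractionRing.div_surjective (A := 𝓞 K) x
  have hb0 : b ≠ 0 := nonZeroDivisors.ne_zero hb
  have hσb : σ (b : K) ≠ 0 := sigma_ne_zero q σ hb0
  have hpos : 0 < ‖σ (b : K)‖ := norm_pos_iff.2 hσb
  have hv0 : (placeOf q σ).intValuation b ≠ 0 := (placeOf q σ).intValuation_ne_zero b hb0
  have hvpos : 0 < (placeOf q σ).intValuation b := zero_lt_iff.2 hv0
  have e1 : algebraMap (𝓞 K) K a = (a : K) := rfl
  have e2 : algebraMap (𝓞 K) K b = (b : K) := rfl
  rw [map_div₀, map_div₀, norm_div, HeightOneSpectrum.valuation_of_algebraMap,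
    HeightOneSpectrum.valuation_of_algebraMap, e1, e2, div_le_one hpos, div_le_one₀ hvpos]
  exact norm_le_norm_iff_intValuation_le q σ a hb0

/-- unit version: `‖σ x‖ = 1 ↔ v(x) = 1` for `x ≠ 0`. -/
theorem norm_eq_one_iff_valuation_eq_one {x : K} (hx : x ≠ 0) :
    ‖σ x‖ = 1 ↔ (placeOf q σ).valuation K x = 1 := by
  have hσx : σ x ≠ 0 := by rwa [Ne, map_eq_zero]
  have hpos : 0 < ‖σ x‖ := norm_pos_iff.2 hσx
  have hv0 : (placeOf q σ).valuation K x ≠ 0 := by rwa [Ne, map_eq_zero]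
  have h1 := norm_le_one_iff_valuation_le_one q σ x
  have h2 := norm_le_one_iff_valuation_le_one q σ x⁻¹
  rw [map_inv₀, map_inv₀, norm_inv, inv_le_one₀ hpos, inv_le_one₀ (zero_lt_iff.2 hv0)] at h2
  constructor
  · intro h
    exact le_antisymm (h1.1 h.le) (h2.1 h.ge)
  · intro h
    exact le_antisymm (h1.2 h.le) (h2.2 h.ge)

end Fermat.Agent.GC.Global.Funct
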