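/-
GATE-C / C4 (LM-T) part 2 (helper80): change of `T` on the `S`-idele class modules
`C_S(L,T) = C(L,T)/U_{T∖S}` (helper52's `LMU.CS`).
-/
import Fermat.Agent.GC.Global.Funct.TChange
import Fermat.Agent.GC.Global.Funct.ClassFunct
import Fermat.Agent.GC.Global.Adapter.UnramUnits
import Fermat.Agent.GC.Global.Adapter.ValDictSurj
import Fermat.Agent.GC.Global.Adapter.PrimesOver
import Fermat.Agent.GC.Global.Funct.ValNorm
import Fermat.Agent.GC.Local.NormVal

set_option autoImplicit false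
set_option linter.unusedSectionVars false

open scoped Padic NumberField
open IntermediateField IsDedekindDomain

noncomputable section

namespace Fermat.Agent.GC.Global.Funct

open Fermat.Agent.GC.Global.Adapter Fermat.Agent.GC.Global.LMU Fermat.Agent.GC.Local
  Fermat.Agent.GC.Local.Unram

section OneLayer

variable (L : IntermediateField ℚ Qb) [FiniteDimensional ℚ L] [IsGalois ℚ L]

/-! ### Local units in terms of the norm of `PadicAlgCl q` -/

theorem mem_locO_iff_norm (q : Nat.Primes) (x : locField (q : ℕ) L) :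
    x ∈ locO L q ↔ ‖(x : PadicAlgCl (q : ℕ))‖ ≤ 1 := by
  rw [locO, mem_padicVS_iff, ← norm_eq_spectralNorm_concrete]
  rfl

theorem mem_unitGroup_locO_iff_norm (q : Nat.Primes) (u : (locField (q : ℕ) L)ˣ) :
    u ∈ (locO L q).unitGroup ↔ ‖((u : locField (q : ℕ) L) : PadicAlgCl (q : ℕ))‖ = 1 := by
  rw [mem_unitGroup_iff_mem, mem_locO_iff_norm, mem_locO_iff_norm]
  have hu0 : ((u : locField (q : ℕ) L) : PadicAlgCl (q : ℕ)) ≠ 0 := by
    intro h0
    exact u.ne_zero (Subtype.ext h0)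
  have hinv : (((u⁻¹ : (locField (q : ℕ) L)ˣ) : locField (q : ℕ) L) : PadicAlgCl (q : ℕ))
      = (((u : locField (q : ℕ) L) : PadicAlgCl (q : ℕ)))⁻¹ := by
    rw [Units.val_inv_eq_inv_val]
    rfl
  rw [hinv, norm_inv]
  have hpos : 0 < ‖((u : locField (q : ℕ) L) : PadicAlgCl (q : ℕ))‖ := norm_pos_iff.2 hu0
  constructor
  · rintro ⟨h1, h2⟩
    have h3 : 1 ≤ ‖((u : locField (q : ℕ) L) : PadicAlgCl (q : ℕ))‖ := by
      have := (inv_le_one₀ hpos).1 h2
      exact this
    exact le_antisymm h1 h3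
  · intro h
    rw [h]
    simp

/-! ### `T`-units are local units outside `T` -/

theorem norm_natCast_of_coprime (q : ℕ) [Fact q.Prime] {n : ℕ} (hn : q.Coprime n) :
    ‖((n : ℕ) : PadicAlgCl q)‖ = 1 := by
  have h := PadicAlgCl.norm_extends q ((n : ℕ) : ℚ_[q])
  rw [Padic.norm_natCast_eq_one_iff.2 hn] at h
  rw [← h]
  congr 1

theorem coprime_Tprod (T : Finset Nat.Primes) (q : Nat.Primes) (hq : q ∉ T) :
    (q : ℕ).Coprime (Tprod T) := by
  unfold Tprod
  apply Nat.Coprime.prod_right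
  intro t ht
  rw [Nat.coprime_primes q.2 t.2]
  intro hqt
  apply hq
  have : q = t := Subtype.ext hqt
  rwa [this]

/-- an element of `L` integral outside `T` has norm `≤ 1` at every embedding over `q ∉ T`. -/
theorem norm_le_one_of_isTIntegral (T : Finset Nat.Primes) (q : Nat.Primes) (hq : q ∉ T) {x : L}
    (hx : IsTIntegral L T x) : ‖padicEmbedding (q : ℕ) (x : Qb)‖ ≤ 1 := by
  obtain ⟨n, hn⟩ := hx
  let σ : L →+* PadicAlgCl (q : ℕ) :=
    (padicEmbedding (q : ℕ)).toRingHom.comp (algebraMap L Qb)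
  have h1 : ‖σ (((Tprod T : ℕ) : L) ^ n * x)‖ ≤ 1 :=
    norm_le_one_of_isIntegral (q : ℕ) (map_isIntegral_int σ hn)
  have h2 : σ (((Tprod T : ℕ) : L) ^ n * x)
      = ((Tprod T : ℕ) : PadicAlgCl (q : ℕ)) ^ n * padicEmbedding (q : ℕ) (x : Qb) := by
    rw [map_mul, map_pow, map_natCast]
    rfl
  rw [h2, norm_mul, norm_pow, norm_natCast_of_coprime (q : ℕ) (coprime_Tprod T q hq), one_pow,
    one_mul] at h1
  exact h1

/-- a `T`-unit has norm `1` at every embedding over `q ∉ T`. -/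
theorem norm_eq_one_of_mem_tUnits (T : Finset Nat.Primes) (q : Nat.Primes) (hq : q ∉ T) {x : Lˣ}
    (hx : x ∈ tUnits L T) : ‖padicEmbedding (q : ℕ) ((x : L) : Qb)‖ = 1 := by
  have h1 := norm_le_one_of_isTIntegral L T q hq hx.1
  have h2 := norm_le_one_of_isTIntegral L T q hq hx.2
  have e : padicEmbedding (q : ℕ) ((((x⁻¹ : Lˣ) : L)) : Qb)
      = (padicEmbedding (q : ℕ) ((x : L) : Qb))⁻¹ := by
    rw [Units.val_inv_eq_inv_val]
    have : (((x : L)⁻¹ : L) : Qb) = ((x : L) : Qb)⁻¹ := rfl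
    rw [this, map_inv₀]
  rw [e, norm_inv] at h2
  have hne : padicEmbedding (q : ℕ) ((x : L) : Qb) ≠ 0 := by
    intro h0
    have h3 : ((x : L) : Qb) = 0 := (padicEmbedding (q : ℕ)).toRingHom.injective (by
      rw [AlgHom.toRingHom_eq_coe, RingHom.coe_coe, h0, map_zero])
    exact x.ne_zero (Subtype.ext h3)
  have hpos : 0 < ‖padicEmbedding (q : ℕ) ((x : L) : Qb)‖ := norm_pos_iff.2 hne
  exact le_antisymm h1 ((inv_le_one₀ hpos).1 h2)

/-! ### The kernel of `J(L,T) → C_S(L,T)` -/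

variable (S T : Finset Nat.Primes)

/-- an idele lies in `U_{T∖S}` iff all its values lie in `vSub`. -/
theorem mem_range_UtoJ_iff (y : J L T) :
    y ∈ LinearMap.range (UtoJ L S T).hom.toLinearMap ↔
      ∀ (q : T) (g : L ≃ₐ[ℚ] L), (y q).1 g ∈ vSub L S (q : Nat.Primes) := by
  constructor
  · rintro ⟨u, rfl⟩ q g
    exact vVal_mem L S (q : Nat.Primes) ((u q).1 g)
  · intro hy
    let u : U L S T := fun q =>
      (⟨fun g => (⟨(y q).1 g, hy q g⟩ : vSub L S (q : Nat.Primes)), fun d g => by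
        apply Subtype.ext
        exact (y q).2 d g⟩ : UqCarrier L S (q : Nat.Primes))
    refine ⟨u, ?_⟩
    funext q
    apply Subtype.ext
    funext g
    rfl

/-- the kernel of `J(L,T) → C_S(L,T)`: `T`-units times unramified units outside `S`. -/
def KS : Submodule ℤ (J L T) :=
  diagTUnits L T ⊔ LinearMap.range (UtoJ L S T).hom.toLinearMap

/-- the projection `J(L,T) → C_S(L,T)`. -/
def JtoCS : J L T →ₗ[ℤ] CS L S T :=
  (CtoCS L S T).hom.toLinearMap.comp (JtoC L T).hom.toLinearMap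

theorem JtoCS_apply (y : J L T) : JtoCS L S T y = (CtoCS L S T).hom ((JtoC L T).hom y) := rfl

theorem JtoCS_surjective : Function.Surjective (JtoCS L S T) := by
  intro c
  obtain ⟨c', rfl⟩ := CtoCS_surjective L S T c
  obtain ⟨y, rfl⟩ := JtoC_surjective L T c'
  exact ⟨y, rfl⟩

theorem ker_JtoCS : LinearMap.ker (JtoCS L S T) = KS L S T := by
  ext y
  rw [LinearMap.mem_ker, JtoCS_apply]
  constructor
  · intro hy
    obtain ⟨u, hu⟩ := (Submodule.Quotient.mk_eq_zero _).1 hy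
    have hu' : (JtoC L T).hom ((UtoJ L S T).hom u) = (JtoC L T).hom y := hu
    have h1 : (JtoC L T).hom (y - (UtoJ L S T).hom u) = 0 := by
      rw [map_sub, hu', sub_self]
    have h2 : y - (UtoJ L S T).hom u ∈ diagTUnits L T := (Submodule.Quotient.mk_eq_zero _).1 h1
    have h3 : y = (y - (UtoJ L S T).hom u) + (UtoJ L S T).hom u := by abel
    rw [h3]
    exact Submodule.add_mem_sup h2 ⟨u, rfl⟩
  · intro hy
    obtain ⟨a, ha, b, ⟨u, rfl⟩, rfl⟩ := Submodule.mem_sup.1 hy
    rw [map_add, map_add]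
    have h1 : (JtoC L T).hom a = 0 := (Submodule.Quotient.mk_eq_zero _).2 ha
    rw [h1, map_zero, zero_add]
    exact (Submodule.Quotient.mk_eq_zero _).2 ⟨u, rfl⟩

theorem JtoCS_eq_zero_iff (y : J L T) : JtoCS L S T y = 0 ↔ y ∈ KS L S T := by
  rw [← ker_JtoCS, LinearMap.mem_ker]

theorem JtoCS_rho (g : L ≃ₐ[ℚ] L) (y : J L T) :
    JtoCS L S T ((J L T).ρ g y) = (CS L S T).ρ g (JtoCS L S T y) := rfl

/-- maps out of `C_S(L,T)` are maps out of `J(L,T)` killing `KS`. -/
def liftCS {M : Type*} [AddCommGroup M] [Module ℤ M] (f : J L T →ₗ[ℤ] M)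
    (hf : KS L S T ≤ LinearMap.ker f) : CS L S T →ₗ[ℤ] M :=
  (USubC L S T).liftQ ((diagTUnits L T).liftQ f (le_trans le_sup_left hf)) (by
    rintro _ ⟨u, rfl⟩
    have : f ((UtoJ L S T).hom u) = 0 :=
      LinearMap.mem_ker.1 (hf (Submodule.mem_sup_right ⟨u, rfl⟩))
    exact LinearMap.mem_ker.2 this)

theorem liftCS_JtoCS {M : Type*} [AddCommGroup M] [Module ℤ M] (f : J L T →ₗ[ℤ] M)
    (hf : KS L S T ≤ LinearMap.ker f) (y : J L T) :
    liftCS L S T f hf (JtoCS L S T y) = f y := rfl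

/-! ### Monotonicity of `T`-units, local units at the new primes -/

variable {T} {T' : Finset Nat.Primes}

theorem isTIntegral_mono (hTT : T ⊆ T') {x : L} (hx : IsTIntegral L T x) : IsTIntegral L T' x := by
  obtain ⟨n, hn⟩ := hx
  refine ⟨n, ?_⟩
  obtain ⟨c, hc⟩ : Tprod T ∣ Tprod T' := Finset.prod_dvd_prod_of_subset T T' _ hTT
  have e : ((Tprod T' : ℕ) : L) ^ n * x = ((c : ℕ) : L) ^ n * (((Tprod T : ℕ) : L) ^ n * x) := by
    rw [hc]
    push_cast
    ring
  rw [e]
  exact (IsIntegral.pow (isIntegral_algebraMap (R := ℤ) (x := (c : ℤ)) |> fun h => by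
    simpa using h) n).mul hn

theorem tUnitsSub_mono (hTT : T ⊆ T') : tUnitsSub L T ≤ tUnitsSub L T' := by
  intro x hx
  exact ⟨isTIntegral_mono L hTT hx.1, isTIntegral_mono L hTT hx.2⟩

/-- the diagonal image of a `T`-unit at a prime `q ∉ T` consists of local units. -/
theorem diagqLin_mem_vSub (q : Nat.Primes) (hqT : q ∉ T) (hqS : q ∉ S) {x : Additive Lˣ}
    (hx : x ∈ tUnitsSub L T) (g : L ≃ₐ[ℚ] L) : (diagqLin L q x).1 g ∈ vSub L S q := by
  have e := vSub_of_not_mem L S hqS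
  rw [e]
  have h1 := norm_eq_one_of_mem_tUnits L T q hqT (map_mem_tUnits L T hx g)
  exact (mem_unitGroup_locO_iff_norm L q _).2 h1

/-! ### The converse dictionary: `T`-units which are local units at `T ∖ S` are `S`-units -/

/-- the global embedding `L → ℚ̄_q` (restriction of `padicEmbedding`). -/
def embL (q : Nat.Primes) : L →+* PadicAlgCl (q : ℕ) :=
  (padicEmbedding (q : ℕ)).toRingHom.comp (algebraMap L Qb)

theorem embL_apply (q : Nat.Primes) (x : L) : embL L q x = padicEmbedding (q : ℕ) (x : Qb) := rfl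

/-- an element integral outside `T` which has norm `≤ 1` at all embeddings over the primes of
`T ∖ S` is integral outside `S`. -/
theorem isTIntegral_of_norm_le_one {x : L} (hx : IsTIntegral L T x)
    (h : ∀ q : Nat.Primes, q ∈ T → q ∉ S → ∀ g : L ≃ₐ[ℚ] L,
      ‖padicEmbedding (q : ℕ) ((g x : L) : Qb)‖ ≤ 1) : IsTIntegral L S x := by
  refine (EH.exists_isIntegral_pow_mul_iff (Tprod S) x).2 fun w hw => ?_
  by_cases hwT : w ∈ EH.primesDvd L (Tprod T)
  · rw [← coe_primesAbove_eq_primesDvd_Tprod, Finset.mem_coe, mem_primesAbove] at hwT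
    obtain ⟨q, hqT, hqw⟩ := hwT
    have hqS : q ∉ S := by
      intro hqS
      apply hw
      rw [← coe_primesAbove_eq_primesDvd_Tprod, Finset.mem_coe, mem_primesAbove]
      exact ⟨q, hqS, hqw⟩
    have := w.isPrime
    obtain ⟨g, hg⟩ := exists_algEquiv_placeIdeal_eq (q : ℕ) (embL L q) w.asIdeal hqw
    have hw' : placeOf (q : ℕ) ((embL L q).comp (g : L →+* L)) = w := HeightOneSpectrum.ext hg
    rw [← hw']
    exact (norm_le_one_iff_valuation_le_one (q : ℕ) _ x).1 (h q hqT hqS g)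
  · exact (EH.exists_isIntegral_pow_mul_iff (Tprod T) x).1 hx w hwT

/-- a `T`-unit which has norm `1` at all embeddings over the primes of `T ∖ S` is an `S`-unit. -/
theorem mem_tUnits_of_norm_eq_one {x : Lˣ} (hx : x ∈ tUnits L T)
    (h : ∀ q : Nat.Primes, q ∈ T → q ∉ S → ∀ g : L ≃ₐ[ℚ] L,
      ‖padicEmbedding (q : ℕ) ((g (x : L) : L) : Qb)‖ = 1) : x ∈ tUnits L S := by
  refine ⟨isTIntegral_of_norm_le_one L S hx.1 fun q hqT hqS g => (h q hqT hqS g).le,
    isTIntegral_of_norm_le_one L S hx.2 fun q hqT hqS g => ?_⟩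
  have e : padicEmbedding (q : ℕ) ((g ((x⁻¹ : Lˣ) : L) : L) : Qb)
      = (padicEmbedding (q : ℕ) ((g (x : L) : L) : Qb))⁻¹ := by
    rw [Units.val_inv_eq_inv_val, map_inv₀]
    have : (((g (x : L))⁻¹ : L) : Qb) = ((g (x : L) : L) : Qb)⁻¹ := rfl
    rw [this, map_inv₀]
  rw [e, norm_inv, h q hqT hqS g, inv_one]

/-- the values of the diagonal image of `x` at `q ∉ S` are local units iff all conjugates of
`x` have norm one. -/
theorem diagqLin_mem_vSub_iff (q : Nat.Primes) (hqS : q ∉ S) (x : Additive Lˣ)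
    (g : L ≃ₐ[ℚ] L) : (diagqLin L q x).1 g ∈ vSub L S q ↔
      ‖padicEmbedding (q : ℕ) ((g ((Additive.toMul x : Lˣ) : L) : L) : Qb)‖ = 1 := by
  have e := vSub_of_not_mem L S hqS
  rw [e]
  exact mem_unitGroup_locO_iff_norm L q _

/-- **`S`-units inside `T`-units**: `x ∈ E(L,S) ↔ x ∈ E(L,T)` and the diagonal image of `x` is a
local unit at every `q ∈ T ∖ S`. -/
theorem mem_tUnitsSub_iff_of_subset (hST : S ⊆ T) (x : Additive Lˣ) :
    x ∈ tUnitsSub L S ↔ x ∈ tUnitsSub L T ∧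
      ∀ q : Nat.Primes, q ∈ T → q ∉ S → ∀ g : L ≃ₐ[ℚ] L, (diagqLin L q x).1 g ∈ vSub L S q := by
  constructor
  · intro hx
    exact ⟨tUnitsSub_mono L hST hx, fun q _ hqS g => diagqLin_mem_vSub L S q hqS hqS hx g⟩
  · rintro ⟨hx, h⟩
    exact mem_tUnits_of_norm_eq_one L S hx fun q hqT hqS g =>
      (diagqLin_mem_vSub_iff L S q hqS x g).1 (h q hqT hqS g)

/-! ### The maps `C(L,S) → C_S(L,T) → C_S(L,T')` -/

theorem extJ_UtoJ_mem (u : U L S T) :
    extJ L T T' ((UtoJ L S T).hom u) ∈ LinearMap.range (UtoJ L S T').hom.toLinearMap := by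
  rw [mem_range_UtoJ_iff]
  intro q g
  by_cases hq : (q : Nat.Primes) ∈ T
  · rw [extJ_apply_of_mem L _ q hq]
    exact vVal_mem L S (q : Nat.Primes) ((u ⟨(q : Nat.Primes), hq⟩).1 g)
  · rw [extJ_apply_of_not_mem L _ q hq]
    exact zero_mem _

theorem extJ_diag_mem_KS (hST : S ⊆ T) (hTT : T ⊆ T') {x : Additive Lˣ}
    (hx : x ∈ tUnitsSub L T) : extJ L T T' ((diag L T).hom x) ∈ KS L S T' := by
  have h1 : (diag L T').hom x ∈ diagTUnits L T' := ⟨x, tUnitsSub_mono L hTT hx, rfl⟩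
  have h2 : (diag L T').hom x - extJ L T T' ((diag L T).hom x)
      ∈ LinearMap.range (UtoJ L S T').hom.toLinearMap := by
    rw [mem_range_UtoJ_iff]
    intro q g
    by_cases hq : (q : Nat.Primes) ∈ T
    · have e : ((diag L T').hom x - extJ L T T' ((diag L T).hom x)) q = 0 := by
        change (diag L T').hom x q - extJ L T T' ((diag L T).hom x) q = 0
        rw [extJ_diag_apply_of_mem L x q hq, sub_self]
      rw [e]
      exact zero_mem _
    · have e : ((diag L T').hom x - extJ L T T' ((diag L T).hom x)) q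
          = diagqLin L (q : Nat.Primes) x := by
        change (diag L T').hom x q - extJ L T T' ((diag L T).hom x) q = _
        rw [extJ_apply_of_not_mem L _ q hq, sub_zero]
        rfl
      rw [e]
      exact diagqLin_mem_vSub L S (q : Nat.Primes) hq (fun hqS => hq (hST hqS)) hx g
  have h3 : extJ L T T' ((diag L T).hom x)
      = (diag L T').hom x - ((diag L T').hom x - extJ L T T' ((diag L T).hom x)) := by abel
  rw [h3]
  exact Submodule.sub_mem _ (Submodule.mem_sup_left h1) (Submodule.mem_sup_right h2)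

theorem KS_le_ker_extJ (hST : S ⊆ T) (hTT : T ⊆ T') :
    KS L S T ≤ LinearMap.ker ((JtoCS L S T').comp (extJ L T T')) := by
  intro y hy
  obtain ⟨a, ⟨x, hx, rfl⟩, b, ⟨u, rfl⟩, rfl⟩ := Submodule.mem_sup.1 hy
  have h1 := (JtoCS_eq_zero_iff L S T' _).2 (extJ_diag_mem_KS L S hST hTT hx)
  have h2 : JtoCS L S T' (extJ L T T' ((UtoJ L S T).hom u)) = 0 :=
    (JtoCS_eq_zero_iff L S T' _).2 (Submodule.mem_sup_right (extJ_UtoJ_mem L S (T' := T') u))
  apply LinearMap.mem_ker.2
  have e : (JtoCS L S T').comp (extJ L T T') ((diag L T).hom x + (UtoJ L S T).hom u)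
      = JtoCS L S T' (extJ L T T' ((diag L T).hom x))
        + JtoCS L S T' (extJ L T T' ((UtoJ L S T).hom u)) := by
    rw [LinearMap.comp_apply, map_add, map_add]
  refine e.trans ?_
  rw [h1, h2, add_zero]

/-- **change of `T`**: `C_S(L,T) → C_S(L,T')` for `S ⊆ T ⊆ T'`, induced by `extJ`. -/
def extCS (hST : S ⊆ T) (hTT : T ⊆ T') : CS L S T →ₗ[ℤ] CS L S T' :=
  liftCS L S T ((JtoCS L S T').comp (extJ L T T')) (KS_le_ker_extJ L S hST hTT)

theorem extCS_JtoCS (hST : S ⊆ T) (hTT : T ⊆ T') (y : J L T) :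
    extCS L S hST hTT (JtoCS L S T y) = JtoCS L S T' (extJ L T T' y) := rfl

/-- `extCS` is `G_L`-equivariant. -/
theorem extCS_rho (hST : S ⊆ T) (hTT : T ⊆ T') (g : L ≃ₐ[ℚ] L) (c : CS L S T) :
    extCS L S hST hTT ((CS L S T).ρ g c) = (CS L S T').ρ g (extCS L S hST hTT c) := by
  obtain ⟨y, rfl⟩ := JtoCS_surjective L S T c
  rw [← JtoCS_rho, extCS_JtoCS, extCS_JtoCS, extJ_rho, JtoCS_rho]

theorem diagTUnits_le_ker_extJ (hST : S ⊆ T) :
    diagTUnits L S ≤ LinearMap.ker ((JtoCS L S T).comp (extJ L S T)) := by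
  rintro _ ⟨x, hx, rfl⟩
  exact LinearMap.mem_ker.2 ((JtoCS_eq_zero_iff L S T _).2
    (extJ_diag_mem_KS L S (Finset.Subset.refl S) hST hx))

/-- **`C(L,S) → C_S(L,T)`** for `S ⊆ T`: extension by the trivial idele at `T ∖ S`. -/
def extC (hST : S ⊆ T) : C L S →ₗ[ℤ] CS L S T :=
  (diagTUnits L S).liftQ ((JtoCS L S T).comp (extJ L S T)) (diagTUnits_le_ker_extJ L S hST)

theorem extC_JtoC (hST : S ⊆ T) (y : J L S) :
    extC L S hST ((JtoC L S).hom y) = JtoCS L S T (extJ L S T y) := rfl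

/-- `extC` is `G_L`-equivariant. -/
theorem extC_rho (hST : S ⊆ T) (g : L ≃ₐ[ℚ] L) (c : C L S) :
    extC L S hST ((C L S).ρ g c) = (CS L S T).ρ g (extC L S hST c) := by
  obtain ⟨y, rfl⟩ := JtoC_surjective L S c
  have e : (C L S).ρ g ((JtoC L S).hom y) = (JtoC L S).hom ((J L S).ρ g y) := rfl
  rw [e, extC_JtoC, extC_JtoC, extJ_rho, JtoCS_rho]

/-- `extC` as a morphism of `G_L`-modules. -/
def extCHom (hST : S ⊆ T) : C L S ⟶ CS L S T :=
  Rep.ofHom (ρ := (C L S).ρ) (σ := (CS L S T).ρ)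
    { toLinearMap := extC L S hST
      isIntertwining' := fun g => LinearMap.ext fun c => extC_rho L S hST g c }

theorem extCHom_hom_apply (hST : S ⊆ T) (c : C L S) :
    (extCHom L S hST).hom c = extC L S hST c := rfl

/-- `extCS` as a morphism of `G_L`-modules. -/
def extCSHom (hST : S ⊆ T) (hTT : T ⊆ T') : CS L S T ⟶ CS L S T' :=
  Rep.ofHom (ρ := (CS L S T).ρ) (σ := (CS L S T').ρ)
    { toLinearMap := extCS L S hST hTT
      isIntertwining' := fun g => LinearMap.ext fun c => extCS_rho L S hST hTT g c }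

theorem extCSHom_hom_apply (hST : S ⊆ T) (hTT : T ⊆ T') (c : CS L S T) :
    (extCSHom L S hST hTT).hom c = extCS L S hST hTT c := rfl

/-! ### Transitivity -/

theorem extCS_extC (hST : S ⊆ T) (hTT : T ⊆ T') (c : C L S) :
    extCS L S hST hTT (extC L S hST c) = extC L S (hST.trans hTT) c := by
  obtain ⟨y, rfl⟩ := JtoC_surjective L S c
  rw [extC_JtoC, extC_JtoC, extCS_JtoCS, extJ_extJ L hST]

theorem extCS_extCS {T'' : Finset Nat.Primes} (hST : S ⊆ T) (hTT : T ⊆ T') (hTT' : T' ⊆ T'')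
    (c : CS L S T) :
    extCS L S (hST.trans hTT) hTT' (extCS L S hST hTT c) = extCS L S hST (hTT.trans hTT') c := by
  obtain ⟨y, rfl⟩ := JtoCS_surjective L S T c
  rw [extCS_JtoCS, extCS_JtoCS, extCS_JtoCS, extJ_extJ L hTT]

theorem extCS_refl (hST : S ⊆ T) (c : CS L S T) :
    extCS L S hST (Finset.Subset.refl T) c = c := by
  obtain ⟨y, rfl⟩ := JtoCS_surjective L S T c
  rw [extCS_JtoCS, extJ_refl]

/-! ### Injectivity -/

/-- the components of an element of `KS` at the primes `q ∈ T ∖ S`: if `y ∈ KS` then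
`y = diag x + u` and `y q` differs from `diag x q` by local units. -/
theorem exists_of_mem_KS {y : J L T} (hy : y ∈ KS L S T) :
    ∃ x ∈ tUnitsSub L T, ∃ u : U L S T, y = (diag L T).hom x + (UtoJ L S T).hom u := by
  obtain ⟨a, ⟨x, hx, rfl⟩, b, ⟨u, rfl⟩, hab⟩ := Submodule.mem_sup.1 hy
  exact ⟨x, hx, u, hab.symm⟩

theorem extC_injective (hST : S ⊆ T) : Function.Injective (extC L S hST) := by
  rw [injective_iff_map_eq_zero]
  intro c hc
  obtain ⟨y, rfl⟩ := JtoC_surjective L S c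
  rw [extC_JtoC, JtoCS_eq_zero_iff] at hc
  obtain ⟨x, hx, u, hxu⟩ := exists_of_mem_KS L S hc
  have hxS : x ∈ tUnitsSub L S := by
    rw [mem_tUnitsSub_iff_of_subset L S hST]
    refine ⟨hx, fun q hqT hqS g => ?_⟩
    have h1 := congrFun hxu ⟨q, hqT⟩
    rw [extJ_apply_of_not_mem L y ⟨q, hqT⟩ hqS] at h1
    have h2 : diagqLin L q x = - (UtoJ L S T).hom u ⟨q, hqT⟩ := by
      have h3 : (0 : JqCarrier L q) = diagqLin L q x + (UtoJ L S T).hom u ⟨q, hqT⟩ := h1
      exact eq_neg_of_add_eq_zero_left h3.symm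
    rw [h2]
    exact (vSub L S q).neg_mem (vVal_mem L S q ((u ⟨q, hqT⟩).1 g))
  have hy : (diag L S).hom x = y := by
    funext q
    have h1 := congrFun hxu ⟨(q : Nat.Primes), hST q.2⟩
    rw [extJ_apply_of_mem L y ⟨(q : Nat.Primes), hST q.2⟩ q.2] at h1
    have h3 : y q = diagqLin L (q : Nat.Primes) x
        + (UtoJ L S T).hom u ⟨(q : Nat.Primes), hST q.2⟩ := h1
    rw [UtoJ_apply_of_mem L S T u ⟨(q : Nat.Primes), hST q.2⟩ q.2, add_zero] at h3
    exact h3.symm
  exact (Submodule.Quotient.mk_eq_zero _).2 ⟨x, hxS, hy⟩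

theorem extCS_injective (hST : S ⊆ T) (hTT : T ⊆ T') :
    Function.Injective (extCS L S hST hTT) := by
  rw [injective_iff_map_eq_zero]
  intro c hc
  obtain ⟨y, rfl⟩ := JtoCS_surjective L S T c
  rw [extCS_JtoCS, JtoCS_eq_zero_iff] at hc
  obtain ⟨x, hx, u, hxu⟩ := exists_of_mem_KS L S hc
  rw [JtoCS_eq_zero_iff]
  have hxT : x ∈ tUnitsSub L T := by
    rw [mem_tUnitsSub_iff_of_subset L T hTT]
    refine ⟨hx, fun q hqT' hqT g => ?_⟩
    have hqS : q ∉ S := fun hqS => hqT (hST hqS)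
    have h1 := congrFun hxu ⟨q, hqT'⟩
    rw [extJ_apply_of_not_mem L y ⟨q, hqT'⟩ hqT] at h1
    have h2 : diagqLin L q x = - (UtoJ L S T').hom u ⟨q, hqT'⟩ := by
      have h3 : (0 : JqCarrier L q) = diagqLin L q x + (UtoJ L S T').hom u ⟨q, hqT'⟩ := h1
      exact eq_neg_of_add_eq_zero_left h3.symm
    rw [h2, vSub_of_not_mem L T hqT, ← vSub_of_not_mem L S hqS]
    exact (vSub L S q).neg_mem (vVal_mem L S q ((u ⟨q, hqT'⟩).1 g))
  have hy : y = (diag L T).hom x + resJ L hTT ((UtoJ L S T').hom u) := by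
    have h1 := congrArg (resJ L hTT) hxu
    rw [resJ_extJ, map_add, resJ_diag] at h1
    exact h1
  rw [hy]
  have h4 : resJ L hTT ((UtoJ L S T').hom u) ∈ LinearMap.range (UtoJ L S T).hom.toLinearMap :=
    (mem_range_UtoJ_iff L S T _).2 fun q g =>
      vVal_mem L S (q : Nat.Primes) ((u ⟨(q : Nat.Primes), hTT q.2⟩).1 g)
  exact Submodule.add_mem_sup ⟨x, hxT, rfl⟩ h4

/-! ### The image of `C(L,S)` in `C_S(L,T)` -/

/-- **range criterion**: the class of the `T`-idele `y` in `C_S(L,T)` comes from `C(L,S)` iff, up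
to a `T`-unit, all components of `y` at the primes of `T ∖ S` are local units. -/
theorem JtoCS_mem_range_extC_iff (hST : S ⊆ T) (y : J L T) :
    JtoCS L S T y ∈ LinearMap.range (extC L S hST) ↔
      ∃ x ∈ tUnitsSub L T, ∀ q : T, (q : Nat.Primes) ∉ S → ∀ g : L ≃ₐ[ℚ] L,
        ((y - (diag L T).hom x) q).1 g ∈ vSub L S (q : Nat.Primes) := by
  constructor
  · rintro ⟨c, hc⟩
    obtain ⟨z, rfl⟩ := JtoC_surjective L S c
    rw [extC_JtoC] at hc
    have h0 : JtoCS L S T (y - extJ L S T z) = 0 := by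
      rw [map_sub, hc, sub_self]
    obtain ⟨x, hx, u, hxu⟩ := exists_of_mem_KS L S ((JtoCS_eq_zero_iff L S T _).1 h0)
    refine ⟨x, hx, fun q hq g => ?_⟩
    have h1 : y - (diag L T).hom x = extJ L S T z + (UtoJ L S T).hom u := by
      have e := sub_eq_iff_eq_add.1 hxu
      rw [sub_eq_iff_eq_add]
      exact e.trans (by abel)
    have h2 : (y - (diag L T).hom x) q = (UtoJ L S T).hom u q := by
      rw [h1]
      change extJ L S T z q + (UtoJ L S T).hom u q = _
      rw [extJ_apply_of_not_mem L z q hq, zero_add]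
    rw [h2]
    exact vVal_mem L S (q : Nat.Primes) ((u q).1 g)
  · rintro ⟨x, hx, h⟩
    set y' : J L T := y - (diag L T).hom x with hy'
    have h1 : y' - extJ L S T (resJ L hST y')
        ∈ LinearMap.range (UtoJ L S T).hom.toLinearMap := by
      refine (mem_range_UtoJ_iff L S T _).2 fun q g => ?_
      by_cases hq : (q : Nat.Primes) ∈ S
      · have e : (y' - extJ L S T (resJ L hST y')) q = 0 := by
          change y' q - extJ L S T (resJ L hST y') q = 0
          rw [extJ_apply_of_mem L _ q hq, resJ_apply, sub_self]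
        rw [e]
        exact zero_mem _
      · have e : (y' - extJ L S T (resJ L hST y')) q = y' q := by
          change y' q - extJ L S T (resJ L hST y') q = _
          rw [extJ_apply_of_not_mem L _ q hq, sub_zero]
        rw [e]
        exact h q hq g
    have h2 : y - extJ L S T (resJ L hST y') ∈ KS L S T := by
      have e : y - extJ L S T (resJ L hST y')
          = (diag L T).hom x + (y' - extJ L S T (resJ L hST y')) := by
        rw [hy']
        abel
      rw [e]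
      exact Submodule.add_mem_sup ⟨x, hx, rfl⟩ h1
    have h3 : JtoCS L S T y = JtoCS L S T (extJ L S T (resJ L hST y')) := by
      have := (JtoCS_eq_zero_iff L S T _).2 h2
      rw [map_sub, sub_eq_zero] at this
      exact this
    exact ⟨(JtoC L S).hom (resJ L hST y'), h3.symm⟩

end OneLayer

/-! ### Inflation `C_S(L,T) → C_S(L',T)` -/

section Infl

variable {L L' : IntermediateField ℚ Qb} [FiniteDimensional ℚ L] [IsGalois ℚ L]
  [FiniteDimensional ℚ L'] [IsGalois ℚ L'] (h : L ≤ L') (S T : Finset Nat.Primes)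

theorem lInclU_norm (q : Nat.Primes) (u : (locField (q : ℕ) L)ˣ) :
    ‖(((lInclU h q u : (locField (q : ℕ) L')ˣ) : locField (q : ℕ) L') : PadicAlgCl (q : ℕ))‖
      = ‖((u : locField (q : ℕ) L) : PadicAlgCl (q : ℕ))‖ := by
  rw [coe_lInclU, coe_lIncl]

/-- local units inflate to local units. -/
theorem lInclU_mem_vSub (q : Nat.Primes) {v : Additive (locField (q : ℕ) L)ˣ}
    (hv : v ∈ vSub L S q) :
    (Additive.ofMul (lInclU h q (Additive.toMul v)) : Additive (locField (q : ℕ) L')ˣ)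
      ∈ vSub L' S q := by
  by_cases hq : q ∈ S
  · have e := vSub_of_mem L S hq
    rw [e] at hv
    have hv0 : v = 0 := (Submodule.mem_bot ℤ).1 hv
    have e' := vSub_of_mem L' S hq
    rw [e', hv0]
    refine (Submodule.mem_bot ℤ).2 ?_
    rw [toMul_zero, map_one]
    rfl
  · have e := vSub_of_not_mem L S hq
    rw [e] at hv
    have hv1 := (mem_unitGroup_locO_iff_norm L q (Additive.toMul v)).1 hv
    have e' := vSub_of_not_mem L' S hq
    rw [e']
    exact (mem_unitGroup_locO_iff_norm L' q (lInclU h q (Additive.toMul v))).2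
      ((lInclU_norm h q (Additive.toMul v)).trans hv1)

theorem inflJ_UtoJ_mem (u : U L S T) :
    inflJ h T ((UtoJ L S T).hom u) ∈ LinearMap.range (UtoJ L' S T).hom.toLinearMap := by
  refine (mem_range_UtoJ_iff L' S T _).2 fun q g' => ?_
  exact lInclU_mem_vSub h S (q : Nat.Primes)
    (vVal_mem L S (q : Nat.Primes) ((u q).1 (gRes h g')))

theorem KS_le_ker_inflJ :
    KS L S T ≤ LinearMap.ker ((JtoCS L' S T).comp (inflJ h T)) := by
  intro y hy
  obtain ⟨x, hx, u, rfl⟩ := exists_of_mem_KS L S hy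
  have h1 : JtoCS L' S T (inflJ h T ((diag L T).hom x)) = 0 := by
    rw [inflJ_diag]
    exact (JtoCS_eq_zero_iff L' S T _).2
      (Submodule.mem_sup_left ⟨gInclA h x, (gInclA_mem_tUnitsSub_iff h T x).2 hx, rfl⟩)
  have h2 : JtoCS L' S T (inflJ h T ((UtoJ L S T).hom u)) = 0 :=
    (JtoCS_eq_zero_iff L' S T _).2 (Submodule.mem_sup_right (inflJ_UtoJ_mem h S T u))
  apply LinearMap.mem_ker.2
  have e : (JtoCS L' S T).comp (inflJ h T) ((diag L T).hom x + (UtoJ L S T).hom u)
      = JtoCS L' S T (inflJ h T ((diag L T).hom x))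
        + JtoCS L' S T (inflJ h T ((UtoJ L S T).hom u)) := by
    rw [LinearMap.comp_apply, map_add, map_add]
  refine e.trans ?_
  rw [h1, h2, add_zero]

/-- **inflation** `C_S(L,T) → C_S(L',T)` for `L ≤ L'` (fixed `S`, `T`). -/
def inflCS : CS L S T →ₗ[ℤ] CS L' S T :=
  liftCS L S T ((JtoCS L' S T).comp (inflJ h T)) (KS_le_ker_inflJ h S T)

theorem inflCS_JtoCS (y : J L T) :
    inflCS h S T (JtoCS L S T y) = JtoCS L' S T (inflJ h T y) := rfl

/-- `inflCS` is induced by `inflC`. -/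
theorem inflCS_CtoCS (c : C L T) :
    inflCS h S T ((CtoCS L S T).hom c) = (CtoCS L' S T).hom (inflC h T c) := by
  obtain ⟨y, rfl⟩ := JtoC_surjective L T c
  rfl

/-- inflation is equivariant along the restriction `G_{L'} → G_L`. -/
theorem inflCS_rho (g' : L' ≃ₐ[ℚ] L') (c : CS L S T) :
    inflCS h S T ((CS L S T).ρ (gRes h g') c) = (CS L' S T).ρ g' (inflCS h S T c) := by
  obtain ⟨y, rfl⟩ := JtoCS_surjective L S T c
  rw [← JtoCS_rho, inflCS_JtoCS, inflCS_JtoCS, inflJ_rho, JtoCS_rho]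

variable {T}

/-- **the square** `C(L,S) → C_S(L,T) → C_S(L',T)` = `C(L,S) → C(L',S) → C_S(L',T)`. -/
theorem inflCS_extC (hST : S ⊆ T) (c : C L S) :
    inflCS h S T (extC L S hST c) = extC L' S hST (inflC h S c) := by
  obtain ⟨y, rfl⟩ := JtoC_surjective L S c
  rw [extC_JtoC, inflCS_JtoCS, inflC_JtoC, extC_JtoC, inflJ_extJ]

/-- inflation commutes with the change of `T`. -/
theorem inflCS_extCS {T' : Finset Nat.Primes} (hST : S ⊆ T) (hTT : T ⊆ T') (c : CS L S T) :
    inflCS h S T' (extCS L S hST hTT c) = extCS L' S hST hTT (inflCS h S T c) := by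
  obtain ⟨y, rfl⟩ := JtoCS_surjective L S T c
  rw [extCS_JtoCS, inflCS_JtoCS, inflCS_JtoCS, extCS_JtoCS, inflJ_extJ]

variable (T)

theorem inflCS_inflCS {L'' : IntermediateField ℚ Qb} [FiniteDimensional ℚ L''] [IsGalois ℚ L'']
    (h' : L' ≤ L'') (c : CS L S T) :
    inflCS h' S T (inflCS h S T c) = inflCS (h.trans h') S T c := by
  obtain ⟨y, rfl⟩ := JtoCS_surjective L S T c
  rw [inflCS_JtoCS, inflCS_JtoCS, inflCS_JtoCS, inflJ_inflJ]

theorem inflCS_refl (c : CS L S T) : inflCS (le_refl L) S T c = c := by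
  obtain ⟨y, rfl⟩ := JtoCS_surjective L S T c
  rw [inflCS_JtoCS, inflJ_refl]

end Infl

end Fermat.Agent.GC.Global.Funct
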