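/-
GATE-C / C4 GLOBAL-COH (helper14): the stage isomorphism.

`L ≤ L'` layers, `V ≤ G_L`, `V' := V.comap (gRes h)` (`= Gal(L'/K)` for `K = L^V`),
`N := ker (gRes h) ∩ V'` (`= Gal(L'/L)`).  Then `V'/N ≃ V` and `C(L',T)^N ≃ C(L,T)` (helper80
`inflC`), compatibly, hence
  `stageIso : Hⁿ(V'/N, C(L',T)^N) ≅ Hⁿ(V, C(L,T))`,
and the transition map of the tower `Hⁿ(V, C(L,T)) → Hⁿ(V', C(L',T))` (restriction of
automorphisms + `inflC`) is `stageIso⁻¹` followed by the inflation `Hⁿ(V'/N, C^N) → Hⁿ(V', C)`.
This identifies the stages of the tower with the quotient layers where LAYER / devissage /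
`InfRes2` live.
-/
import Mathlib
import Fermat.Agent.GC.Global.Funct.ClassFunct
import Fermat.Agent.GC.Global.Adapter.Layer2Abs
import Fermat.Agent.GC.Global.Devissage
import Fermat.Agent.GC.Tate.QuotIso

set_option autoImplicit false
set_option linter.unusedSectionVars false

open CategoryTheory

noncomputable section

namespace Fermat.Agent.GC.Global.Funct

open Fermat.Agent.GC.Global.Adapter Fermat.Agent.GC.Global.Layer2

variable {L L' : IntermediateField ℚ Qb} [FiniteDimensional ℚ L] [IsGalois ℚ L]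
  [FiniteDimensional ℚ L'] [IsGalois ℚ L'] (h : L ≤ L') (T : Finset Nat.Primes)
  (V : Subgroup (L ≃ₐ[ℚ] L))

/-- `V' = Gal(L'/K)`, the preimage of `V = Gal(L/K)` under restriction. -/
abbrev upV : Subgroup (L' ≃ₐ[ℚ] L') := V.comap (gRes h)

/-- `N = Gal(L'/L)` as a subgroup of `V'`. -/
abbrev kerN : Subgroup (upV h V) := ((gRes h).ker).subgroupOf (upV h V)

instance kerN_normal : (kerN h V).Normal := by
  unfold kerN
  infer_instance

theorem ker_le_upV : (gRes h).ker ≤ upV h V := by
  intro g hg
  rw [Subgroup.mem_comap, MonoidHom.mem_ker.1 hg]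
  exact V.one_mem

/-- restriction of automorphisms `V' → V`. -/
def resV : upV h V →* V where
  toFun g := ⟨gRes h g.1, g.2⟩
  map_one' := Subtype.ext (map_one _)
  map_mul' _ _ := Subtype.ext (map_mul _ _ _)

@[simp] theorem coe_resV (g : upV h V) : ((resV h V g : V) : L ≃ₐ[ℚ] L) = gRes h g.1 := rfl

theorem resV_surjective : Function.Surjective (resV h V) := by
  rintro ⟨v, hv⟩
  obtain ⟨g, hg⟩ := GalRes.res_surjective (gIncl h) v
  exact ⟨⟨g, by rw [Subgroup.mem_comap]; change gRes h g ∈ V; rw [show gRes h g = v from hg]; exact hv⟩,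
    Subtype.ext hg⟩

theorem ker_resV : (resV h V).ker = kerN h V := by
  ext g
  rw [MonoidHom.mem_ker, Subgroup.mem_subgroupOf, MonoidHom.mem_ker]
  constructor
  · intro hg
    exact congrArg Subtype.val hg
  · intro hg
    exact Subtype.ext hg

/-- `V'/N ≃ V`. -/
def quotEquivV : upV h V ⧸ kerN h V ≃* V :=
  (QuotientGroup.quotientMulEquivOfEq (ker_resV h V).symm).trans
    (QuotientGroup.quotientKerEquivOfSurjective (resV h V) (resV_surjective h V))

@[simp] theorem quotEquivV_mk (g : upV h V) :
    quotEquivV h V (QuotientGroup.mk g) = resV h V g := rfl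

/-- `inflC` as a morphism of `V'`-modules `Res_{V' → V} C(L,T) ⟶ C(L',T)`. -/
def inflCRes : Rep.res (resV h V) (Rep.res V.subtype (C L T)) ⟶
    Rep.res (upV h V).subtype (C L' T) :=
  Rep.ofHom
    { toLinearMap := inflC h T
      isIntertwining' := fun g => by
        ext c
        exact inflC_rho h T g.1 c }

@[simp] theorem inflCRes_hom_apply (c : C L T) : (inflCRes h T V).hom c = inflC h T c := rfl

theorem inflCRes_injective (hT : T.Nonempty) : Function.Injective (inflCRes h T V).hom :=
  inflC_injective h T hT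

theorem exists_inflCRes_eq (hT : T.Nonempty)
    (hH1 : Fermat.Agent.GC.Tate.InfRes2.H1Vanishes (E L' T) (gRes h).ker)
    (a' : Rep.res (upV h V).subtype (C L' T))
    (ha' : ∀ n ∈ (resV h V).ker, (Rep.res (upV h V).subtype (C L' T)).ρ n a' = a') :
    ∃ a : Rep.res V.subtype (C L T), (inflCRes h T V).hom a = a' := by
  refine exists_inflC_eq h T hT hH1 a' (fun n hn => ?_)
  have hmem : (⟨n, ker_le_upV h V hn⟩ : upV h V) ∈ (resV h V).ker := by
    rw [ker_resV]
    exact hn
  exact ha' ⟨n, ker_le_upV h V hn⟩ hmem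

/-- The transition map of the tower: `Hⁿ(V, C(L,T)) ⟶ Hⁿ(V', C(L',T))`. -/
def stageTrans (n : ℕ) : groupCohomology (Rep.res V.subtype (C L T)) n ⟶
    groupCohomology (Rep.res (upV h V).subtype (C L' T)) n :=
  groupCohomology.map (resV h V) (inflCRes h T V) n

/-- **The stage isomorphism** `Hⁿ(V'/N, C(L',T)^N) ≅ Hⁿ(V, C(L,T))`, `N = ker (V' → V)`. -/
def stageIso (hT : T.Nonempty)
    (hH1 : Fermat.Agent.GC.Tate.InfRes2.H1Vanishes (E L' T) (gRes h).ker) (n : ℕ) :
    groupCohomology (layerRep (upV h V) (resV h V).ker (C L' T)) n ≅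
      groupCohomology (Rep.res V.subtype (C L T)) n :=
  Fermat.Agent.GC.Tate.QuotIso.quotIso (Rep.res V.subtype (C L T))
    (Rep.res (upV h V).subtype (C L' T)) (resV h V) (inflCRes h T V) (resV_surjective h V)
    (inflCRes_injective h T V hT) (exists_inflCRes_eq h T V hT hH1) n

/-- **The transition map is `stageIso⁻¹` followed by inflation.** -/
theorem stageIso_inv_infl (hT : T.Nonempty)
    (hH1 : Fermat.Agent.GC.Tate.InfRes2.H1Vanishes (E L' T) (gRes h).ker) (n : ℕ) :
    (stageIso h T V hT hH1 n).inv ≫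
        Fermat.Agent.GC.Global.Devissage.infl (Rep.res (upV h V).subtype (C L' T))
          (resV h V).ker n =
      stageTrans h T V n :=
  Fermat.Agent.GC.Tate.QuotIso.quotIso_inv_infl (Rep.res V.subtype (C L T))
    (Rep.res (upV h V).subtype (C L' T)) (resV h V) (inflCRes h T V) (resV_surjective h V)
    (inflCRes_injective h T V hT) (exists_inflCRes_eq h T V hT hH1) n

/-- elementwise form: every class of `Hⁿ(V, C(L,T))` is `stageIso` of a class of the quotient
layer whose inflation is its image under the transition map. -/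
theorem exists_quot_class (hT : T.Nonempty)
    (hH1 : Fermat.Agent.GC.Tate.InfRes2.H1Vanishes (E L' T) (gRes h).ker) (n : ℕ)
    (z : groupCohomology (Rep.res V.subtype (C L T)) n) :
    ∃ z' : groupCohomology (layerRep (upV h V) (resV h V).ker (C L' T)) n,
      (stageIso h T V hT hH1 n).hom.hom z' = z ∧
      (Fermat.Agent.GC.Global.Devissage.infl (Rep.res (upV h V).subtype (C L' T))
        (resV h V).ker n).hom z' = (stageTrans h T V n).hom z := by
  refine ⟨(stageIso h T V hT hH1 n).inv.hom z, ?_, ?_⟩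
  · have := (stageIso h T V hT hH1 n).inv_hom_id
    exact congr($(this).hom z)
  · have := stageIso_inv_infl h T V hT hH1 n
    exact congr($(this).hom z)

end Fermat.Agent.GC.Global.Funct
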