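/-
GATE-C / C4 [B']-FIN leaf (M1) (helper79): composita of layers with the cyclotomic layers.

* `ker_gRes_inf_ker_gRes_eq_bot` : `L ⊔ M = L'` ⟹ `Gal(L'/L) ⊓ Gal(L'/M) = ⊥`;
* `isUnramifiedOutside_cycLayer` : `ℚ(ζ_{p^(k+1)})` is unramified outside `S ∋ p`;
* `exists_layer_sup`             : `L' := L ⊔ cycLayer p k` is again a layer;
* `card_upV`, `index_upV`, `card_kerN` : counting for `V' = upV h V`.
-/
import Mathlib
import Fermat.Agent.GC.Global.Funct.StageIso
import Fermat.Agent.GC.Global.WRec.CycloTower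
import Fermat.Agent.GC.Global.WRec.ProductFormulaQ
import Fermat.Agent.GC.Capit.QbarUnramPow

set_option autoImplicit false
set_option linter.unusedSectionVars false

open NumberField

noncomputable section

namespace Fermat.Agent.GC.Global.Funct

open Fermat.Agent.GC.Global.Adapter Fermat.Agent.GC.Global.WRec

/-! ### (a) the two kernels meet trivially -/

section Ker

variable {L M L' : IntermediateField ℚ Qb} [FiniteDimensional ℚ L] [IsGalois ℚ L]
  [FiniteDimensional ℚ M] [IsGalois ℚ M] [FiniteDimensional ℚ L'] [IsGalois ℚ L']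

/-- an automorphism of `L'` restricting to the identity on `L` fixes the elements of `L`. -/
theorem apply_eq_of_mem_ker_gRes (h₁ : L ≤ L') {g : L' ≃ₐ[ℚ] L'} (hg : g ∈ (gRes h₁).ker)
    (x : L) : g (gIncl h₁ x) = gIncl h₁ x := by
  have h := GalRes.apply_res (gIncl h₁) g x
  rw [MonoidHom.mem_ker.1 hg] at h
  exact h.symm

/-- **(M1)(a)**: if `L' = L ⊔ M` then `Gal(L'/L) ⊓ Gal(L'/M) = ⊥`. -/
theorem ker_gRes_inf_ker_gRes_eq_bot (h₁ : L ≤ L') (h₂ : M ≤ L') (hsup : L ⊔ M = L') :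
    (gRes h₁).ker ⊓ (gRes h₂).ker = ⊥ := by
  rw [eq_bot_iff]
  rintro g ⟨hg₁, hg₂⟩
  rw [Subgroup.mem_bot]
  -- the fixed field of `g`, lifted to `ℚ̄`
  set E₀ : IntermediateField ℚ L' := IntermediateField.fixedField (Subgroup.zpowers g) with hE₀
  have hfix : ∀ y : L', g y = y → y ∈ E₀ := by
    intro y hy
    rw [hE₀, IntermediateField.mem_fixedField_iff]
    intro σ hσ
    have h1 : Subgroup.zpowers g ≤ MulAction.stabilizer (L' ≃ₐ[ℚ] L') y :=
      Subgroup.zpowers_le.2 (MulAction.mem_stabilizer_iff.2 hy)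
    exact MulAction.mem_stabilizer_iff.1 (h1 hσ)
  have hL : L ≤ IntermediateField.lift E₀ := by
    intro x hx
    have h3 : gIncl h₁ ⟨x, hx⟩ ∈ E₀ := hfix _ (apply_eq_of_mem_ker_gRes h₁ hg₁ ⟨x, hx⟩)
    have h4 := (IntermediateField.mem_lift (gIncl h₁ ⟨x, hx⟩)).2 h3
    rwa [coe_gIncl] at h4
  have hM : M ≤ IntermediateField.lift E₀ := by
    intro x hx
    have h3 : gIncl h₂ ⟨x, hx⟩ ∈ E₀ := hfix _ (apply_eq_of_mem_ker_gRes h₂ hg₂ ⟨x, hx⟩)
    have h4 := (IntermediateField.mem_lift (gIncl h₂ ⟨x, hx⟩)).2 h3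
    rwa [coe_gIncl] at h4
  have hL' : L' ≤ IntermediateField.lift E₀ := le_trans (le_of_eq hsup.symm) (sup_le hL hM)
  apply AlgEquiv.ext
  intro y
  have h5 : y ∈ E₀ := (IntermediateField.mem_lift y).1 (hL' y.2)
  rw [hE₀, IntermediateField.mem_fixedField_iff] at h5
  exact h5 g (Subgroup.mem_zpowers g)

end Ker

/-! ### (b) the compositum with a cyclotomic layer is a layer -/

section Sup

variable (p : ℕ) [hp : Fact p.Prime] (k : ℕ) (S : Finset Nat.Primes)

/-- `ℚ(ζ_{p^(k+1)})` is unramified outside any `S ∋ p`. -/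
theorem isUnramifiedOutside_cycLayer (hpS : pp p ∈ S) : (cycLayer p k).IsUnramifiedOutside S := by
  have hbot : (⊥ : IntermediateField ℚ Qb).IsUnramifiedOutside S :=
    IntermediateField.isUnramifiedOutside_bot S
  have h := Fermat.Agent.GC.Capit.isUnramifiedOutside_sup_adjoin_root_pow hp.out S hpS (k + 1) ⊥ hbot
    1 (fun v hv _ _ => ⟨1, by
      rw [one_pow, div_one]
      haveI := hv
      exact Fermat.Agent.S14.SI.oneModPow_one v 0⟩) (zetaQb p k) (by
      rw [(zetaQb_spec p k).pow_eq_one]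
      simp)
  rw [bot_sup_eq] at h
  exact h

variable {S}

theorem isGalois_sup_of_isGalois {L M : IntermediateField ℚ Qb} [IsGalois ℚ L] [IsGalois ℚ M] :
    IsGalois ℚ (L ⊔ M : IntermediateField ℚ Qb) := by
  have n1 : Normal ℚ L := IsGalois.to_normal
  have n2 : Normal ℚ M := IsGalois.to_normal
  have n3 := @IntermediateField.normal_sup ℚ Qb _ _ _ L M n1 n2
  have s3 : Algebra.IsSeparable ℚ ↥(L ⊔ M) := by
    have : Algebra.IsAlgebraic ℚ ↥(L ⊔ M) := n3.toIsAlgebraic
    infer_instance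
  exact { to_isSeparable := s3, to_normal := n3 }

/-- **(M1)(b)**: `L ⊔ ℚ(ζ_{p^(k+1)})` is a layer. -/
theorem exists_layer_sup {L : IntermediateField ℚ Qb} [IsGalois ℚ L]
    (hL : L.IsUnramifiedOutside S) (hpS : pp p ∈ S) :
    ∃ L' : IntermediateField ℚ Qb, L ≤ L' ∧ cycLayer p k ≤ L' ∧ L ⊔ cycLayer p k = L' ∧
      FiniteDimensional ℚ L' ∧ IsGalois ℚ L' ∧ L'.IsUnramifiedOutside S := by
  have hu := hL.sup (isUnramifiedOutside_cycLayer p k S hpS)
  exact ⟨L ⊔ cycLayer p k, le_sup_left, le_sup_right, rfl, hu.1, isGalois_sup_of_isGalois, hu⟩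

end Sup

/-! ### (c) counting for `V' = upV h V` -/

section Count

variable {L L' : IntermediateField ℚ Qb} [FiniteDimensional ℚ L] [IsGalois ℚ L]
  [FiniteDimensional ℚ L'] [IsGalois ℚ L'] (h : L ≤ L') (V : Subgroup (L ≃ₐ[ℚ] L))

theorem gRes_surjective : Function.Surjective (gRes h) :=
  GalRes.res_surjective (gIncl h)

/-- **(M1)(c)**: `[G_{L'} : V'] = [G_L : V]`. -/
theorem index_upV : (upV h V).index = V.index :=
  Subgroup.index_comap_of_surjective V (gRes_surjective h)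

theorem card_kerN : Nat.card (kerN h V) = Nat.card (gRes h).ker :=
  Nat.card_congr (Subgroup.subgroupOfEquivOfLe (ker_le_upV h V)).toEquiv

/-- **(M1)(c)**: `|V'| = |V| · |Gal(L'/L)|`. -/
theorem card_upV : Nat.card (upV h V) = Nat.card V * Nat.card (gRes h).ker := by
  rw [Subgroup.card_eq_card_quotient_mul_card_subgroup (kerN h V), card_kerN,
    Nat.card_congr (quotEquivV h V).toEquiv]

end Count

end Fermat.Agent.GC.Global.Funct
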