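/-
GATE-C / C4 (T-SURJ) (helper80): surjectivity of the change of `T`.

If the primes of `L` above `T` generate the class group of `L` (`GeneratesCl`, part of `GoodT`),
then for `S ⊆ T ⊆ T'` the map `extCS : C_S(L,T) → C_S(L,T')` is surjective, hence bijective
(`extCS_injective`), and induces isomorphisms on the cohomology of every subgroup.

Idea: `J_{T'} = E_{T'} · U_{T'∖T} · J_T`. For `y' ∈ J(L,T')`, weak approximation (helper68/helper4)
gives `x₀ ∈ Lˣ` with the valuations of `y'` at all places above `T'`; as the primes above `T`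
generate the class group there is `γ ∈ Lˣ` with `ord_v γ = ord_v x₀` at the places above `T' ∖ T`
and `ord_v γ = 0` outside `T'` (T14's `exists_ord_eq_of_finsupp`): `γ` is a `T'`-unit and
`y' - diag γ` is a local unit at all places above `T' ∖ T`.
-/
import Fermat.Agent.GC.Global.Funct.TChangeCS
import Fermat.Agent.GC.Global.Adapter.ClassFinite
import Fermat.Agent.GC.Global.Adapter.GoodT
import Fermat.Agent.GC.Kummer.Engine

set_option autoImplicit false
set_option linter.unusedSectionVars false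

open scoped Padic NumberField
open IntermediateField IsDedekindDomain NumberField nonZeroDivisors

noncomputable section

namespace Fermat.Agent.GC.Global.Funct

open Fermat.Agent.S14 Fermat.Agent.S14.SI Fermat.Agent.GC.Kummer
open Fermat.Agent.GC.Global.Adapter Fermat.Agent.GC.Global.Adapter.EH
open Fermat.Agent.GC.Global.Adapter.CF Fermat.Agent.GC.Global.LMU Fermat.Agent.GC.Local
  Fermat.Agent.GC.Local.Unram

variable (L : IntermediateField ℚ Qb) [FiniteDimensional ℚ L] [IsGalois ℚ L]
  (S : Finset Nat.Primes) {T T' : Finset Nat.Primes}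

local notation "K₀" => fixK L (⊥ : Subgroup (L ≃ₐ[ℚ] L))

/-- a place above a prime `Q ∉ T` is not above `T`. -/
theorem placeOf_notMem_primesAbove {K : Type*} [Field K] [NumberField K] (Q : Nat.Primes)
    (hQ : Q ∉ T) (σ : K →+* PadicAlgCl (Q : ℕ)) : placeOf (Q : ℕ) σ ∉ primesAbove K T := by
  intro hmem
  obtain ⟨q, hqT, hq⟩ := mem_primesAbove.1 hmem
  have hne : q ≠ Q := fun h => hQ (h ▸ hqT)
  have hcop : (Q : ℕ).Coprime (q : ℕ) := by
    rw [Nat.coprime_primes Q.2 q.2]
    exact fun h => hne (Subtype.ext h.symm)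
  have h1 : ‖σ (((q : ℕ) : 𝓞 K) : K)‖ < 1 := (mem_placeOf_iff (Q : ℕ) σ).1 hq
  have h2 : σ (((q : ℕ) : 𝓞 K) : K) = ((q : ℕ) : PadicAlgCl (Q : ℕ)) := by
    have e : ((((q : ℕ) : 𝓞 K)) : K) = ((q : ℕ) : K) := by simp
    rw [e, map_natCast]
  rw [h2, norm_natCast_of_coprime (Q : ℕ) hcop] at h1
  exact lt_irrefl _ h1

/-- **the key approximation**: if the primes above `T` generate the class group of `L`, every
`T'`-idele has, at all places above `T' ∖ T`, the valuations of a `T'`-unit. -/
theorem exists_tUnit_norm_eq (hgen : GeneratesCl (fixK L (⊥ : Subgroup (L ≃ₐ[ℚ] L))) T)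
    (hTT : T ⊆ T') (y : J L T') :
    ∃ γ : Lˣ, γ ∈ tUnits L T' ∧ ∀ (Q : T'), Q.1 ∉ T → ∀ g : L ≃ₐ[ℚ] L,
      ‖jval L Q.1 (y Q) g‖ = ‖padicEmbedding (Q.1 : ℕ) ((g (γ : L) : L) : Qb)‖ := by
  classical
  obtain ⟨x₀, hx₀⟩ := exists_norm_jval_div_eq_one L T' (fun Q : T' => y Q)
  let m : HeightOneSpectrum (𝓞 K₀) → ℤ := fun v =>
    if v ∈ primesAbove K₀ T' then Multiplicative.toAdd (Bridge.ord v x₀) else 0
  obtain ⟨γ, hγ⟩ := exists_ord_eq_of_finsupp (primesAbove K₀ T) hgen (primesAbove K₀ T') m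
    (fun v hv => by simp only [m, if_neg hv])
  have hγunit : γ ∈ (primesDvd K₀ (Tprod T')).unit K₀ := by
    rw [Bridge.mem_unit_iff]
    intro v hv
    rw [← coe_primesAbove_eq_primesDvd_Tprod, Finset.mem_coe] at hv
    rw [Bridge.isUnitAt_iff_ord]
    apply Multiplicative.toAdd.injective
    by_cases hvT : v ∈ primesAbove K₀ T
    · exact absurd (primesAbove_mono hTT hvT) hv
    · rw [hγ v hvT]
      simp only [m, if_neg hv]
      rfl
  refine ⟨Units.map ((fixK L (⊥ : Subgroup (L ≃ₐ[ℚ] L))).val : fixK L ⊥ →* L) γ,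
    map_mem_tUnits_of_mem_unit L T' γ hγunit, fun Q hQ g => ?_⟩
  have hfact : Fact (Q.1 : ℕ).Prime := factNatPrimes Q.1
  let σ : K₀ →+* PadicAlgCl (Q.1 : ℕ) := embK L ⊥ (Q.1 : ℕ) g
  have hv' : placeOf (Q.1 : ℕ) σ ∈ primesAbove K₀ T' := by
    have := placeOf_mem_primesDvd T' Q σ
    rwa [← coe_primesAbove_eq_primesDvd_Tprod, Finset.mem_coe] at this
  have hvT : placeOf (Q.1 : ℕ) σ ∉ primesAbove K₀ T := placeOf_notMem_primesAbove Q.1 hQ σ
  have hord : Bridge.ord (placeOf (Q.1 : ℕ) σ) (x₀ / γ) = 1 := by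
    apply Multiplicative.toAdd.injective
    rw [map_div, toAdd_div, hγ _ hvT]
    simp only [m, if_pos hv']
    rw [sub_self]
    rfl
  have hunit : IsUnitAt (placeIdeal (Q.1 : ℕ) σ) (x₀ / γ) :=
    (Bridge.isUnitAt_iff_ord (placeOf (Q.1 : ℕ) σ) (x₀ / γ)).2 hord
  have h1 := norm_eq_one_of_isUnitAt (Q.1 : ℕ) σ hunit
  have hγ0 : σ (γ : K₀) ≠ 0 := by
    rw [Ne, map_eq_zero]; exact γ.ne_zero
  have hx0 : σ (x₀ : K₀) ≠ 0 := by
    rw [Ne, map_eq_zero]; exact x₀.ne_zero
  have h2 : ‖σ (x₀ : K₀)‖ = ‖σ (γ : K₀)‖ := by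
    rw [Units.val_div_eq_div_val, map_div₀, norm_div,
      div_eq_one_iff_eq (norm_ne_zero_iff.2 hγ0)] at h1
    exact h1
  have h3 : ‖jval L Q.1 (y Q) g / σ (x₀ : K₀)‖ = 1 := hx₀ Q g
  rw [norm_div, div_eq_one_iff_eq (norm_ne_zero_iff.2 hx0)] at h3
  rw [h3, h2]
  rfl

/-- **(T-SURJ)**: if the primes above `T` generate the class group of `L`, the change of `T`
`C_S(L,T) → C_S(L,T')` is surjective. -/
theorem extCS_surjective_of_generatesCl
    (hgen : GeneratesCl (fixK L (⊥ : Subgroup (L ≃ₐ[ℚ] L))) T) (hST : S ⊆ T) (hTT : T ⊆ T') :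
    Function.Surjective (extCS L S hST hTT) := by
  intro c'
  obtain ⟨y', rfl⟩ := JtoCS_surjective L S T' c'
  obtain ⟨γ, hγ, hnorm⟩ := exists_tUnit_norm_eq L hgen hTT y'
  have hx : (Additive.ofMul γ : Additive Lˣ) ∈ tUnitsSub L T' := hγ
  -- the corrected idele
  let y'' : J L T' := (1 : ℕ) • y' - (diag L T').hom (Additive.ofMul γ)
  have hy'' : y'' = y' - (diag L T').hom (Additive.ofMul γ) := by
    change (1 : ℕ) • y' - _ = _
    rw [one_nsmul]
  refine ⟨JtoCS L S T (resJ L hTT y''), ?_⟩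
  rw [extCS_JtoCS]
  have h1 : y'' - extJ L T T' (resJ L hTT y'')
      ∈ LinearMap.range (UtoJ L S T').hom.toLinearMap := by
    refine (mem_range_UtoJ_iff L S T' _).2 fun Q g => ?_
    by_cases hQ : (Q : Nat.Primes) ∈ T
    · have e : (y'' - extJ L T T' (resJ L hTT y'')) Q = 0 := by
        change y'' Q - extJ L T T' (resJ L hTT y'') Q = 0
        rw [extJ_apply_of_mem L _ Q hQ, resJ_apply, sub_self]
      rw [e]
      exact zero_mem _
    · have e : (y'' - extJ L T T' (resJ L hTT y'')) Q = y'' Q := by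
        change y'' Q - extJ L T T' (resJ L hTT y'') Q = _
        rw [extJ_apply_of_not_mem L _ Q hQ, sub_zero]
      rw [e]
      have hQS : (Q : Nat.Primes) ∉ S := fun h => hQ (hST h)
      have e' := vSub_of_not_mem L S hQS
      rw [e']
      apply mem_intUnitsSub_of_norm_eq_one L Q.1
      have hfact : Fact (Q.1 : ℕ).Prime := factNatPrimes Q.1
      have hval := jval_smul_sub_diag L T' 1 y' γ Q g
      unfold jval junit jfun at hval
      have hn := hnorm Q hQ g
      unfold jval junit jfun at hn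
      have hne : padicEmbedding (Q.1 : ℕ) ((g (γ : L) : L) : Qb) ≠ 0 := by
        intro h0
        have h3 : ((g (γ : L) : L) : Qb) = 0 := (padicEmbedding (Q.1 : ℕ)).toRingHom.injective (by
          rw [AlgHom.toRingHom_eq_coe, RingHom.coe_coe, h0, map_zero])
        have h4 : g (γ : L) = 0 := Subtype.ext h3
        exact γ.ne_zero ((map_eq_zero g).1 h4)
      refine (congrArg norm hval).trans ?_
      rw [norm_div, pow_one, hn]
      exact div_self (norm_ne_zero_iff.2 hne)
  have h2 : y' - extJ L T T' (resJ L hTT y'') ∈ KS L S T' := by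
    have e : y' - extJ L T T' (resJ L hTT y'')
        = (diag L T').hom (Additive.ofMul γ) + (y'' - extJ L T T' (resJ L hTT y'')) := by
      rw [hy'']
      abel
    rw [e]
    exact Submodule.add_mem_sup ⟨Additive.ofMul γ, hx, rfl⟩ h1
  have h3 := (JtoCS_eq_zero_iff L S T' _).2 h2
  rw [map_sub, sub_eq_zero] at h3
  exact h3.symm

/-! ### Consequences for good `T` -/

section Good

open CategoryTheory groupCohomology

variable {p : ℕ}

theorem extCS_surjective (hg : GoodT L T p) (hST : S ⊆ T) (hTT : T ⊆ T') :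
    Function.Surjective (extCS L S hST hTT) :=
  extCS_surjective_of_generatesCl L S (hg.gen ⊥) hST hTT

theorem extCS_bijective (hg : GoodT L T p) (hST : S ⊆ T) (hTT : T ⊆ T') :
    Function.Bijective (extCS L S hST hTT) :=
  ⟨extCS_injective L S hST hTT, extCS_surjective L S hg hST hTT⟩

/-- the change of `T` as a linear equivalence, for good `T`. -/
def extCSEquiv (hg : GoodT L T p) (hST : S ⊆ T) (hTT : T ⊆ T') : CS L S T ≃ₗ[ℤ] CS L S T' :=
  LinearEquiv.ofBijective (extCS L S hST hTT) (extCS_bijective L S hg hST hTT)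

@[simp] theorem extCSEquiv_apply (hg : GoodT L T p) (hST : S ⊆ T) (hTT : T ⊆ T')
    (c : CS L S T) : extCSEquiv L S hg hST hTT c = extCS L S hST hTT c := rfl

/-- the inverse of `extCSHom`, for good `T`. -/
def extCSInvHom (hg : GoodT L T p) (hST : S ⊆ T) (hTT : T ⊆ T') : CS L S T' ⟶ CS L S T :=
  Rep.ofHom (ρ := (CS L S T').ρ) (σ := (CS L S T).ρ)
    { toLinearMap := (extCSEquiv L S hg hST hTT).symm.toLinearMap
      isIntertwining' := fun g => LinearMap.ext fun c => by
        apply (extCSEquiv L S hg hST hTT).injective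
        change extCSEquiv L S hg hST hTT ((extCSEquiv L S hg hST hTT).symm ((CS L S T').ρ g c))
          = extCSEquiv L S hg hST hTT ((CS L S T).ρ g ((extCSEquiv L S hg hST hTT).symm c))
        rw [LinearEquiv.apply_symm_apply, extCSEquiv_apply, extCS_rho,
          ← extCSEquiv_apply L S hg hST hTT, LinearEquiv.apply_symm_apply] }

theorem extCSInvHom_hom_apply (hg : GoodT L T p) (hST : S ⊆ T) (hTT : T ⊆ T')
    (c : CS L S T') :
    (extCSInvHom L S hg hST hTT).hom c = (extCSEquiv L S hg hST hTT).symm c := rfl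

/-- the change of `T` as an isomorphism of `G_L`-modules, for good `T`. -/
def extCSIso (hg : GoodT L T p) (hST : S ⊆ T) (hTT : T ⊆ T') : CS L S T ≅ CS L S T' where
  hom := extCSHom L S hST hTT
  inv := extCSInvHom L S hg hST hTT
  hom_inv_id := by
    apply Rep.hom_ext
    apply Representation.IntertwiningMap.ext
    apply LinearMap.ext
    intro c
    exact (extCSEquiv L S hg hST hTT).symm_apply_apply c
  inv_hom_id := by
    apply Rep.hom_ext
    apply Representation.IntertwiningMap.ext
    apply LinearMap.ext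
    intro c
    exact (extCSEquiv L S hg hST hTT).apply_symm_apply c

theorem isIso_extCSHom (hg : GoodT L T p) (hST : S ⊆ T) (hTT : T ⊆ T') :
    IsIso (extCSHom L S hST hTT) :=
  (extCSIso L S hg hST hTT).isIso_hom

/-- **change of `T` on cohomology**: for good `T` and `S ⊆ T ⊆ T'`, every subgroup `V ≤ G_L` and
every `n`, `Hⁿ(V, C_S(L,T)) → Hⁿ(V, C_S(L,T'))` is bijective. -/
theorem map_extCSHom_bijective (hg : GoodT L T p) (hST : S ⊆ T) (hTT : T ⊆ T')
    (V : Subgroup (L ≃ₐ[ℚ] L)) (n : ℕ) :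
    Function.Bijective (groupCohomology.map (A := Rep.res V.subtype (CS L S T))
      (B := Rep.res V.subtype (CS L S T')) (MonoidHom.id V)
      ((Rep.resFunctor (k := ℤ) V.subtype).map (extCSHom L S hST hTT)) n).hom := by
  have h1 : groupCohomology.map (A := Rep.res V.subtype (CS L S T))
      (B := Rep.res V.subtype (CS L S T')) (MonoidHom.id V)
      ((Rep.resFunctor (k := ℤ) V.subtype).map (extCSHom L S hST hTT)) n ≫
      groupCohomology.map (A := Rep.res V.subtype (CS L S T'))
        (B := Rep.res V.subtype (CS L S T)) (MonoidHom.id V)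
        ((Rep.resFunctor (k := ℤ) V.subtype).map (extCSInvHom L S hg hST hTT)) n = 𝟙 _ := by
    rw [← groupCohomology.map_id_comp, ← CategoryTheory.Functor.map_comp]
    have e : extCSHom L S hST hTT ≫ extCSInvHom L S hg hST hTT = 𝟙 _ :=
      (extCSIso L S hg hST hTT).hom_inv_id
    rw [e, CategoryTheory.Functor.map_id]
    exact groupCohomology.map_id n
  have h2 : groupCohomology.map (A := Rep.res V.subtype (CS L S T'))
      (B := Rep.res V.subtype (CS L S T)) (MonoidHom.id V)
      ((Rep.resFunctor (k := ℤ) V.subtype).map (extCSInvHom L S hg hST hTT)) n ≫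
      groupCohomology.map (A := Rep.res V.subtype (CS L S T))
        (B := Rep.res V.subtype (CS L S T')) (MonoidHom.id V)
        ((Rep.resFunctor (k := ℤ) V.subtype).map (extCSHom L S hST hTT)) n = 𝟙 _ := by
    rw [← groupCohomology.map_id_comp, ← CategoryTheory.Functor.map_comp]
    have e : extCSInvHom L S hg hST hTT ≫ extCSHom L S hST hTT = 𝟙 _ :=
      (extCSIso L S hg hST hTT).inv_hom_id
    rw [e, CategoryTheory.Functor.map_id]
    exact groupCohomology.map_id n
  refine Function.bijective_iff_has_inverse.2 ⟨(groupCohomology.map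
    (A := Rep.res V.subtype (CS L S T')) (B := Rep.res V.subtype (CS L S T)) (MonoidHom.id V)
    ((Rep.resFunctor (k := ℤ) V.subtype).map (extCSInvHom L S hg hST hTT)) n).hom, ?_, ?_⟩
  · intro x
    have := congrArg (fun f => f.hom x) h1
    simpa using this
  · intro x
    have := congrArg (fun f => f.hom x) h2
    simpa using this

end Good

end Fermat.Agent.GC.Global.Funct
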