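/-
GATE-C / C4 (A3) complement (helper80): the ambient stage modules `C_S(L,T)|_{Gal(L/K)}` over
helper12's `LayerTower`, with the inclusions `C(L,S) ↪ C_S(L,T)` and the transition maps
`C_S(L,T) → C_S(L',T')` (`L ≤ L'`, `T ⊆ T'`) as morphisms of representations of the stage groups.

* `transCS h S hST hTT : CS L S T →ₗ[ℤ] CS L' S T'` (= `extCS ∘ inflCS`), equivariant, transitive,
  compatible with `extC` / `inflC`;
* `BS ℓ T`, `incS ℓ hST : A ℓ ⟶ BS ℓ T` (injective), `trS h hST hTT : Rep.res (tau h) (BS ℓ T) ⟶ BS ℓ' T'`,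
  `trS_incS`, `trS_trS`  (= the fields `inc`, `s`, `s_inc`, `s_trans` of helper7's `CompareCS.Ambient`).
-/
import Fermat.Agent.GC.Global.Funct.TChangeCS
import Fermat.Agent.GC.Global.Limit.LayerTower

set_option autoImplicit false
set_option linter.unusedSectionVars false

open scoped Padic
open IntermediateField CategoryTheory

noncomputable section

namespace Fermat.Agent.GC.Global.Funct

open Fermat.Agent.GC.Global.Adapter Fermat.Agent.GC.Global.LMU
open Fermat.Agent.GC.Global.Limit.LayerTower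

/-! ### Transition maps in both variables -/

section Trans

variable {L L' : IntermediateField ℚ Qb} [FiniteDimensional ℚ L] [IsGalois ℚ L]
  [FiniteDimensional ℚ L'] [IsGalois ℚ L'] (h : L ≤ L') (S : Finset Nat.Primes)
  {T T' : Finset Nat.Primes}

/-- the transition map `C_S(L,T) → C_S(L',T')` for `L ≤ L'`, `S ⊆ T ⊆ T'`. -/
def transCS (hST : S ⊆ T) (hTT : T ⊆ T') : CS L S T →ₗ[ℤ] CS L' S T' :=
  (extCS L' S hST hTT).comp (inflCS h S T)

theorem transCS_apply (hST : S ⊆ T) (hTT : T ⊆ T') (c : CS L S T) :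
    transCS h S hST hTT c = extCS L' S hST hTT (inflCS h S T c) := rfl

theorem transCS_apply' (hST : S ⊆ T) (hTT : T ⊆ T') (c : CS L S T) :
    transCS h S hST hTT c = inflCS h S T' (extCS L S hST hTT c) := by
  rw [transCS_apply, inflCS_extCS]

theorem transCS_JtoCS (hST : S ⊆ T) (hTT : T ⊆ T') (y : J L T) :
    transCS h S hST hTT (JtoCS L S T y) = JtoCS L' S T' (extJ L' T T' (inflJ h T y)) := rfl

/-- equivariance along the restriction `G_{L'} → G_L`. -/
theorem transCS_rho (hST : S ⊆ T) (hTT : T ⊆ T') (g' : L' ≃ₐ[ℚ] L') (c : CS L S T) :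
    transCS h S hST hTT ((CS L S T).ρ (gRes h g') c)
      = (CS L' S T').ρ g' (transCS h S hST hTT c) := by
  rw [transCS_apply, transCS_apply, inflCS_rho, extCS_rho]

/-- the square with the inclusions of `C(L,S)`. -/
theorem transCS_extC (hST : S ⊆ T) (hTT : T ⊆ T') (c : C L S) :
    transCS h S hST hTT (extC L S hST c) = extC L' S (hST.trans hTT) (inflC h S c) := by
  rw [transCS_apply, inflCS_extC, extCS_extC]

theorem transCS_refl (hST : S ⊆ T) (c : CS L S T) :
    transCS (le_refl L) S hST (Finset.Subset.refl T) c = c := by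
  rw [transCS_apply, inflCS_refl, extCS_refl]

theorem transCS_transCS {L'' : IntermediateField ℚ Qb} [FiniteDimensional ℚ L'']
    [IsGalois ℚ L''] (h' : L' ≤ L'') {T'' : Finset Nat.Primes} (hST : S ⊆ T) (hTT : T ⊆ T')
    (hTT' : T' ⊆ T'') (c : CS L S T) :
    transCS h' S (hST.trans hTT) hTT' (transCS h S hST hTT c)
      = transCS (h.trans h') S hST (hTT.trans hTT') c := by
  rw [transCS_apply, transCS_apply, transCS_apply, ← inflCS_extCS, extCS_extCS, inflCS_extCS,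
    inflCS_inflCS]

end Trans

/-! ### The ambient stage modules over helper12's `LayerTower` -/

section Stage

variable {S : Finset Nat.Primes} {K : IntermediateField ℚ Qb} {T T' T'' : Finset Nat.Primes}

/-- the ambient stage module `C_S(L,T)` restricted to `Gal(L/K)`. -/
def BS (ℓ : Layer S K) (T : Finset Nat.Primes) : Rep ℤ (Q ℓ) :=
  Rep.res (galK K ℓ.L).subtype (CS ℓ.L S T)

theorem BS_ρ (ℓ : Layer S K) (T : Finset Nat.Primes) (σ : Q ℓ) (c : CS ℓ.L S T) :
    (BS ℓ T).ρ σ c = (CS ℓ.L S T).ρ (σ : ℓ.L ≃ₐ[ℚ] ℓ.L) c := rfl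

/-- the inclusion `C(L,S) ↪ C_S(L,T)` as a morphism of `Gal(L/K)`-modules. -/
def incS (ℓ : Layer S K) (hST : S ⊆ T) : A ℓ ⟶ BS ℓ T :=
  Rep.ofHom (ρ := (A ℓ).ρ) (σ := (BS ℓ T).ρ)
    { toLinearMap := extC ℓ.L S hST
      isIntertwining' := fun σ => LinearMap.ext fun c =>
        extC_rho ℓ.L S hST (σ : ℓ.L ≃ₐ[ℚ] ℓ.L) c }

@[simp] theorem incS_hom (ℓ : Layer S K) (hST : S ⊆ T) (c : C ℓ.L S) :
    (incS ℓ hST).hom c = extC ℓ.L S hST c := rfl

theorem incS_injective (ℓ : Layer S K) (hST : S ⊆ T) : Function.Injective (incS ℓ hST).hom :=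
  extC_injective ℓ.L S hST

/-- the transition maps of the ambient stage modules. -/
def trS {ℓ ℓ' : Layer S K} (h : ℓ ≤ ℓ') (hST : S ⊆ T) (hTT : T ⊆ T') :
    Rep.res (tau h) (BS ℓ T) ⟶ BS ℓ' T' :=
  Rep.ofHom (ρ := (Rep.res (tau h) (BS ℓ T)).ρ) (σ := (BS ℓ' T').ρ)
    { toLinearMap := transCS (Layer.le_def.1 h) S hST hTT
      isIntertwining' := fun σ => LinearMap.ext fun c =>
        transCS_rho (Layer.le_def.1 h) S hST hTT (σ : ℓ'.L ≃ₐ[ℚ] ℓ'.L) c }

@[simp] theorem trS_hom {ℓ ℓ' : Layer S K} (h : ℓ ≤ ℓ') (hST : S ⊆ T) (hTT : T ⊆ T')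
    (c : CS ℓ.L S T) : (trS h hST hTT).hom c = transCS (Layer.le_def.1 h) S hST hTT c := rfl

/-- `s_inc`: the transition maps are compatible with the inclusions and helper12's `tr`. -/
theorem trS_incS {ℓ ℓ' : Layer S K} (h : ℓ ≤ ℓ') (hST : S ⊆ T) (hTT : T ⊆ T') (a : A ℓ) :
    (trS h hST hTT).hom ((incS ℓ hST).hom a) = (incS ℓ' (hST.trans hTT)).hom ((tr h).hom a) :=
  transCS_extC (Layer.le_def.1 h) S hST hTT a

/-- `s_trans`. -/
theorem trS_trS {ℓ ℓ' ℓ'' : Layer S K} (h : ℓ ≤ ℓ') (h' : ℓ' ≤ ℓ'') (hST : S ⊆ T) (hTT : T ⊆ T')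
    (hTT' : T' ⊆ T'') (b : BS ℓ T) :
    (trS h' (hST.trans hTT) hTT').hom ((trS h hST hTT).hom b)
      = (trS (h.trans h') hST (hTT.trans hTT')).hom b :=
  transCS_transCS (Layer.le_def.1 h) S (Layer.le_def.1 h') hST hTT hTT' b

end Stage

end Fermat.Agent.GC.Global.Funct
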